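import Fermat.Prelude.Def_AlgebraicCurve_Correspondence
import Fermat.Prelude.Def_AlgebraicCurve_BaseChangeGalois
import Mathlib

/-!
# Bounded homomorphisms on divisors

`eq_zero_of_degree_eq_zero`: a homomorphism on divisors which kills principal divisors and has
uniformly bounded coefficients on the images of points (`IsBounded`) kills all divisors of degree
zero, provided all places have degree one and Riemann's inequality (`HasRiemannBound`) holds.

Proof: a multiple `n • D + g • P` is linearly equivalent to an effective divisor of degree `g`, so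
its image is bounded independently of `n`.
-/

set_option autoImplicit false
set_option linter.style.haveILetI false

noncomputable section

open AlgebraicCurve

namespace FLTAgent.Kronecker

variable {K F : Type*} [Field K] [Field F] [Algebra K F] {ι κ : Type*}

/-- Riemann's inequality, in the only form we need. -/
def HasRiemannBound (K F : Type*) [Field K] [Field F] [Algebra K F] : Prop :=
  ∃ g : ℕ, ∀ D : Divisor K F, (g : ℤ) ≤ Divisor.degree D →
    ∃ f : F, f ≠ 0 ∧ ∀ v : Place K F, 0 ≤ D v + v.ord f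

/-- Uniformly bounded coefficients on the images of points. -/
def IsBounded (Δ : Divisor K F →+ (ι →₀ ℤ)) : Prop :=
  ∃ C : ℕ, ∀ (P : Place K F) (i : ι), |Δ (Finsupp.single P 1) i| ≤ (C : ℤ)

theorem IsBounded.add {Δ Δ' : Divisor K F →+ (ι →₀ ℤ)} (h : IsBounded Δ) (h' : IsBounded Δ') :
    IsBounded (Δ + Δ') := by
  obtain ⟨C, hC⟩ := h
  obtain ⟨C', hC'⟩ := h'
  refine ⟨C + C', fun P i => ?_⟩
  rw [AddMonoidHom.add_apply, Finsupp.add_apply, Nat.cast_add]
  exact (abs_add_le _ _).trans (add_le_add (hC P i) (hC' P i))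

theorem IsBounded.neg {Δ : Divisor K F →+ (ι →₀ ℤ)} (h : IsBounded Δ) : IsBounded (-Δ) := by
  obtain ⟨C, hC⟩ := h
  exact ⟨C, fun P i => by rw [AddMonoidHom.neg_apply, Finsupp.neg_apply, abs_neg]; exact hC P i⟩

theorem IsBounded.sub {Δ Δ' : Divisor K F →+ (ι →₀ ℤ)} (h : IsBounded Δ) (h' : IsBounded Δ') :
    IsBounded (Δ - Δ') := by
  rw [sub_eq_add_neg]
  exact h.add h'.neg

theorem IsBounded.nsmul {Δ : Divisor K F →+ (ι →₀ ℤ)} (n : ℕ) (h : IsBounded Δ) :
    IsBounded (n • Δ) := by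
  obtain ⟨C, hC⟩ := h
  refine ⟨n * C, fun P i => ?_⟩
  rw [AddMonoidHom.nsmul_apply, Finsupp.smul_apply, nsmul_eq_mul, abs_mul, Nat.abs_cast,
    Nat.cast_mul]
  exact mul_le_mul_of_nonneg_left (hC P i) (Nat.cast_nonneg n)

theorem isBounded_of_single (Δ : Divisor K F →+ (ι →₀ ℤ)) (h : Place K F → ι)
    (hΔ : ∀ P, Δ (Finsupp.single P 1) = Finsupp.single (h P) 1) : IsBounded Δ := by
  classical
  refine ⟨1, fun P i => ?_⟩
  rw [hΔ, Finsupp.single_apply]
  split_ifs <;> simp

theorem abs_mapDomain_sum_single_le {α : Type*} (h : κ → ι) (s : Finset α) (p : α → κ)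
    (m : α → ℤ) (i : ι) :
    |Finsupp.mapDomain h (∑ a ∈ s, Finsupp.single (p a) (m a)) i| ≤ ∑ a ∈ s, |m a| := by
  classical
  rw [Finsupp.mapDomain_finsetSum, Finset.sum_apply']
  refine (Finset.abs_sum_le_sum_abs _ _).trans (Finset.sum_le_sum fun a _ => ?_)
  rw [Finsupp.mapDomain_single, Finsupp.single_apply]
  split_ifs <;> simp

theorem abs_apply_le (Δ : Divisor K F →+ (ι →₀ ℤ)) {C : ℕ}
    (hC : ∀ (P : Place K F) (i : ι), |Δ (Finsupp.single P 1) i| ≤ (C : ℤ)) (E : Divisor K F)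
    (hE : ∀ v, 0 ≤ E v) (hdeg : ∀ v : Place K F, v.deg = 1) (i : ι) :
    |Δ E i| ≤ Divisor.degree E * C := by
  classical
  have hsum : E = ∑ v ∈ E.support, (E v) • Finsupp.single v (1 : ℤ) := by
    conv_lhs => rw [← Finsupp.sum_single E, Finsupp.sum]
    exact Finset.sum_congr rfl fun v _ => by rw [Finsupp.smul_single, smul_eq_mul, mul_one]
  conv_lhs => rw [hsum]
  conv_rhs => rw [hsum]
  rw [map_sum, Finset.sum_apply', map_sum, Finset.sum_mul]
  refine (Finset.abs_sum_le_sum_abs _ _).trans (Finset.sum_le_sum fun v _ => ?_)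
  rw [map_zsmul, map_zsmul, Divisor.degree_single, hdeg, Finsupp.smul_apply, smul_eq_mul,
    smul_eq_mul, abs_mul, abs_of_nonneg (hE v), Nat.cast_one, mul_one, mul_one]
  exact mul_le_mul_of_nonneg_left (hC v i) (hE v)

theorem eq_zero_of_forall_nat_mul_le {a B : ℤ} (h : ∀ n : ℕ, |(n : ℤ) * a| ≤ B) : a = 0 := by
  by_contra ha
  have h1 := h (B.natAbs + 1)
  rw [abs_mul, Nat.abs_cast] at h1
  have h2 : 1 ≤ |a| := Int.one_le_abs ha
  push_cast at h1
  nlinarith [le_abs_self B, mul_nonneg (abs_nonneg B) (sub_nonneg.mpr h2)]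

/-- The key trick: bounded on points and zero on principal divisors implies zero in degree `0`. -/
theorem eq_zero_of_degree_eq_zero [HasPrincipalDivisors K F]
    (hdeg : ∀ v : Place K F, v.deg = 1) (hRR : HasRiemannBound K F)
    {Δ : Divisor K F →+ (ι →₀ ℤ)} (hΔ : IsBounded Δ)
    (hprin : ∀ D ∈ Divisor.principal (K := K) (F := F), Δ D = 0)
    {D : Divisor K F} (hD : Divisor.degree D = 0) : Δ D = 0 := by
  obtain ⟨g, hg⟩ := hRR
  obtain ⟨C, hC⟩ := hΔ
  rcases isEmpty_or_nonempty (Place K F) with hempty | ⟨⟨P⟩⟩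
  · rw [Subsingleton.elim D 0, map_zero]
  ext i
  rw [Finsupp.zero_apply]
  refine eq_zero_of_forall_nat_mul_le (B := 2 * (g * C)) fun n => ?_
  set D' := n • D + g • Finsupp.single P (1 : ℤ) with hD'
  have hdeg' : Divisor.degree D' = g := by
    rw [hD', map_add, map_nsmul, map_nsmul, hD, smul_zero, zero_add, Divisor.degree_single,
      hdeg, Nat.cast_one, mul_one, nsmul_eq_mul, mul_one]
  obtain ⟨f, hf, hfD⟩ := hg D' hdeg'.ge
  obtain ⟨E, hE, hEdeg⟩ := HasPrincipalDivisors.exists_divisor (K := K) f hf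
  have hEprin : E ∈ Divisor.principal (K := K) (F := F) := ⟨f, hf, hE⟩
  have hb := abs_apply_le Δ hC (D' + E) (fun v => by rw [Finsupp.add_apply, hE]; exact hfD v)
    hdeg i
  rw [map_add Divisor.degree, hdeg', hEdeg, add_zero, map_add Δ, hprin E hEprin, add_zero, hD',
    map_add, map_nsmul, map_nsmul, Finsupp.add_apply, Finsupp.smul_apply, Finsupp.smul_apply,
    nsmul_eq_mul, nsmul_eq_mul] at hb
  have hb' : |(g : ℤ) * Δ (Finsupp.single P 1) i| ≤ g * C := by
    rw [abs_mul, Nat.abs_cast]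
    exact mul_le_mul_of_nonneg_left (hC P i) (Nat.cast_nonneg g)
  have := abs_le.mp hb
  have := abs_le.mp hb'
  exact abs_le.mpr ⟨by linarith, by linarith⟩

end FLTAgent.Kronecker
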