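import Fermat.Agent.Kronecker.NormProduct
import Fermat.Agent.ModularCosets.Corollaries

/-!
# The degree of the Hecke correspondence

`finrankAlong_heckeAlphaBar`: over `ℚ̄` the degree of `X₀(N ℓ) → X₀(N)` is `ℓ + 1` for a prime
`ℓ ∤ N`; this is quoted from the coset computation in `ModularCosets`.
-/

set_option autoImplicit false

noncomputable section

open ModularCurve AlgebraicCurve

namespace FLTAgent.Kronecker

/-- The degree of `X₀(N ℓ) → X₀(N)` is `ℓ + 1`. -/
theorem finrankAlong_heckeAlphaBar (N : ℕ) [NeZero N] {ℓ : ℕ} [NeZero ℓ] (hℓ : ℓ.Prime)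
    (hℓN : ¬ ℓ ∣ N) :
    finrankAlong (AlgebraicClosure ℚ) (heckeAlphaBar (AlgebraicClosure ℚ) N ℓ) = ℓ + 1 :=
  (FLTAgent.ModularCosets.finrankAlong_alphaBar hℓ).trans (if_neg hℓN)

end FLTAgent.Kronecker
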