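import Fermat.Agent.Kronecker.NormProduct
import Fermat.Agent.Kronecker.Bounded
import Fermat.Agent.FF.PlacesModular
import Fermat.Agent.Kronecker.Degree
import Fermat.Agent.Reduction.InputsMain
import Fermat.Agent.FF.RiemannRoch
import Fermat.Agent.GalCommon.Basic

/-!
# The inputs at `L = ℚ̄`

Specializations to the function fields of `X₀(N)` over `ℚ̄`: they are function fields of one
variable with places of degree one and a Riemann bound (`isFF_bar`, `deg_eq_one_bar`,
`hasRiemannBound_bar`), the Hecke correspondences are defined (`heckeInputs_bar`), and reduction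
at `ℓ ∤ N` exists and is injective on torsion of order prime to `ℓ` (`reductionInputs`,
`torsion_injective`).
-/

set_option autoImplicit false

noncomputable section

open ModularCurve AlgebraicCurve

namespace FLTAgent.Kronecker

local notation "Qb" => AlgebraicClosure ℚ

variable (N : ℕ) [NeZero N]

/-- The function field of `X₀(N)` over `ℚ̄` is a function field of one variable. -/
theorem isFF_bar : FLTAgent.FF.IsFF Qb (modularFunctionFieldBar N) :=
  FLTAgent.FF.isFF_laurentBaseChange_full Qb N fun _ hne hd =>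
    haveI := hne
    FLTAgent.ModularCosets.isAlgebraic_rat_jq N hd

theorem hasPrincipalDivisors_bar : HasPrincipalDivisors Qb (modularFunctionFieldBar N) :=
  haveI := isFF_bar N
  inferInstance

theorem deg_eq_one_bar (v : Place Qb (modularFunctionFieldBar N)) : v.deg = 1 :=
  haveI := isFF_bar N
  FLTAgent.FF.deg_eq_one v

theorem hasRiemannBound_bar : HasRiemannBound Qb (modularFunctionFieldBar N) :=
  haveI := isFF_bar N
  ⟨genusFF Qb (modularFunctionFieldBar N), fun _ hD =>
    FLTAgent.FF.exists_mem_of_genusFF_le_degree hD⟩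

theorem heckeInputs_bar (ℓ : ℕ) [NeZero ℓ] : HeckeInputsAlong Qb N ℓ :=
  haveI := isFF_bar N
  haveI : NeZero (N * ℓ) := ⟨mul_ne_zero (NeZero.ne N) (NeZero.ne ℓ)⟩
  haveI := isFF_bar (N * ℓ)
  FLTAgent.FF.heckeInputsAlong Qb N ℓ

theorem finrankAlong_alpha {ℓ : ℕ} [NeZero ℓ] (hℓ : ℓ.Prime) (hℓN : ¬ ℓ ∣ N) :
    finrankAlong Qb (heckeAlphaBar Qb N ℓ) = ℓ + 1 :=
  finrankAlong_heckeAlphaBar N hℓ hℓN

theorem reductionInputs {ℓ : ℕ} (hℓ : ℓ.Prime) (hℓN : ¬ ℓ ∣ N) {A : ValuationSubring Qb}
    (hA : A.LiesOverPrime ℓ) : ReductionInputsModL A N :=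
  haveI := Fact.mk hℓ
  FLTAgent.Reduction.reductionInputsModL N hℓN A hA

theorem torsion_injective {ℓ : ℕ} (hℓ : ℓ.Prime) (hℓN : ¬ ℓ ∣ N) {A : ValuationSubring Qb}
    (hA : A.LiesOverPrime ℓ) (h : ReductionInputsModL A N) {m : ℕ} (hm : ¬ ℓ ∣ m) {z : JZero N}
    (hmz : m • z = 0) (hz : reductionModL A N z = 0) : z = 0 :=
  haveI := Fact.mk hℓ
  FLTAgent.Reduction.eq_zero_of_reductionModL_eq_zero N hℓN A hA h m hm z hmz hz

end FLTAgent.Kronecker
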