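import Fermat.Prelude.Def_HeckeGalois_EichlerShimura

/-!
# The formal special fibre

For an additive operator `g` on a module `V`, a Hecke element `T` and a number `ℓ`, `specialFibre`
is the module of homomorphisms from the Hecke algebra to `V` satisfying `g² - T g + ℓ = 0`, with
the operator `fibreOp` induced by `g`.  `toSpecialFibre` maps a Hecke module into it by means of a
homomorphism to `V` satisfying the relation.
-/

set_option autoImplicit false

noncomputable section

open ModularCurve

namespace FLTAgent.Kronecker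

variable {V : Type*} [AddCommGroup V] (g : V →+ V) (T : HeckeAlg) (ℓ : ℕ)

/-- Homomorphisms `φ` with `g²(φ s) - g (φ (s T)) + ℓ φ s = 0`. -/
def specialFibre : AddSubgroup (HeckeAlg →+ V) where
  carrier := {φ | ∀ s : HeckeAlg, g (g (φ s)) - g (φ (s * T)) + ℓ • φ s = 0}
  zero_mem' s := by simp
  add_mem' {φ ψ} hφ hψ s := by
    have h := congrArg₂ (· + ·) (hφ s) (hψ s)
    simp only [AddMonoidHom.add_apply, map_add, smul_add, add_zero] at h ⊢
    rw [← h]; abel
  neg_mem' {φ} hφ s := by
    have h := congrArg Neg.neg (hφ s)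
    simp only [AddMonoidHom.neg_apply, map_neg, smul_neg, neg_zero] at h ⊢
    rw [← h]; abel

theorem mem_specialFibre {φ : HeckeAlg →+ V} :
    φ ∈ specialFibre g T ℓ ↔ ∀ s : HeckeAlg, g (g (φ s)) - g (φ (s * T)) + ℓ • φ s = 0 :=
  Iff.rfl

theorem comp_mulRight_mem {φ : HeckeAlg →+ V} (hφ : φ ∈ specialFibre g T ℓ) (t : HeckeAlg) :
    φ.comp (AddMonoidHom.mulRight t) ∈ specialFibre g T ℓ := fun s => by
  simp only [AddMonoidHom.comp_apply, AddMonoidHom.coe_mulRight, mul_right_comm s T t]
  exact hφ (s * t)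

theorem comp_left_mem {φ : HeckeAlg →+ V} (hφ : φ ∈ specialFibre g T ℓ) :
    g.comp φ ∈ specialFibre g T ℓ := fun s => by
  have h := congrArg g (hφ s)
  simpa only [map_add, map_sub, map_nsmul, map_zero, AddMonoidHom.comp_apply] using h

instance : SMul HeckeAlg (specialFibre g T ℓ) :=
  ⟨fun t φ => ⟨(φ : HeckeAlg →+ V).comp (AddMonoidHom.mulRight t), comp_mulRight_mem g T ℓ φ.2 t⟩⟩

theorem specialFibre_smul_apply (t : HeckeAlg) (φ : specialFibre g T ℓ) (s : HeckeAlg) :
    ((t • φ : specialFibre g T ℓ) : HeckeAlg →+ V) s = (φ : HeckeAlg →+ V) (s * t) :=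
  rfl

instance : Module HeckeAlg (specialFibre g T ℓ) where
  one_smul φ := Subtype.ext <| AddMonoidHom.ext fun s => by rw [specialFibre_smul_apply, mul_one]
  mul_smul a b φ := Subtype.ext <| AddMonoidHom.ext fun s => by
    rw [specialFibre_smul_apply, specialFibre_smul_apply, specialFibre_smul_apply, mul_assoc]
  smul_zero a := Subtype.ext <| AddMonoidHom.ext fun s => rfl
  smul_add a φ ψ := Subtype.ext <| AddMonoidHom.ext fun s => rfl
  add_smul a b φ := Subtype.ext <| AddMonoidHom.ext fun s => by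
    rw [specialFibre_smul_apply, mul_add, map_add]
    rfl
  zero_smul φ := Subtype.ext <| AddMonoidHom.ext fun s => by
    rw [specialFibre_smul_apply, mul_zero, map_zero]
    rfl

/-- The operator induced by `g`. -/
def fibreOp : specialFibre g T ℓ →+ specialFibre g T ℓ where
  toFun φ := ⟨g.comp (φ : HeckeAlg →+ V), comp_left_mem g T ℓ φ.2⟩
  map_zero' := Subtype.ext <| AddMonoidHom.ext fun _ => map_zero g
  map_add' φ ψ := Subtype.ext <| AddMonoidHom.ext fun s =>
    map_add g ((φ : HeckeAlg →+ V) s) ((ψ : HeckeAlg →+ V) s)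

@[simp]
theorem fibreOp_apply (φ : specialFibre g T ℓ) (s : HeckeAlg) :
    (fibreOp g T ℓ φ : HeckeAlg →+ V) s = g ((φ : HeckeAlg →+ V) s) := rfl

theorem fibreOp_relation (φ : specialFibre g T ℓ) :
    fibreOp g T ℓ (fibreOp g T ℓ φ) - T • fibreOp g T ℓ φ + ℓ • φ = 0 :=
  Subtype.ext <| AddMonoidHom.ext fun s => φ.2 s

variable {J : Type*} [AddCommGroup J] [Module HeckeAlg J] (r : J →+ V)

/-- The map into the formal special fibre attached to `r : J →+ V`. -/
def toSpecialFibre (h : ∀ y : J, g (g (r y)) - g (r (T • y)) + ℓ • r y = 0) :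
    J →+ specialFibre g T ℓ where
  toFun x := ⟨r.comp ((smulAddHom HeckeAlg J).flip x), fun s => by
    simp only [AddMonoidHom.comp_apply, AddMonoidHom.flip_apply, smulAddHom_apply]
    rw [mul_comm s T, mul_smul]
    exact h (s • x)⟩
  map_zero' := Subtype.ext <| AddMonoidHom.ext fun s => by simp
  map_add' x y := Subtype.ext <| AddMonoidHom.ext fun s => by simp

theorem toSpecialFibre_apply (h) (x : J) (s : HeckeAlg) :
    (toSpecialFibre g T ℓ r h x : HeckeAlg →+ V) s = r (s • x) := rfl

end FLTAgent.Kronecker
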