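import Fermat.Agent.Kronecker.NormProduct
import Fermat.Agent.ModularCosets.Transfer

/-!
# The Atkin–Lehner swap

`hasSwap`: for a prime `ℓ ∤ N` and a field `L` embeddable in `ℂ` there is an embedding of the
function field of level `N ℓ` into Laurent series exchanging `y(q)` and `y(q^ℓ)` on level `N`.
The expansions at a suitable cusp show that the permutation `swapIdx` of the generators
`j(q^d)` preserves all polynomial relations (`aeval_swap_eq_zero_iff`).
-/

set_option autoImplicit false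
set_option linter.style.haveILetI false

noncomputable section

open ModularCurve AlgebraicCurve CongruenceSubgroup
open scoped MatrixGroups

namespace FLTAgent.Kronecker

open FLTAgent.ModularCosets (DivIdx qScale qScale_eq qScale_qScale qScale_injective
  coeffMap_qScale coeffEmb_jq_eq)

variable (L : Type*) [Field L]

/-- The series `j (q^d)`, `d ∣ M`. -/
def jSeries (d : ℕ) : LaurentSeries L := qScale L d (jqModC L)

theorem coeffMap_jSeries {L' : Type*} [Field L'] (ι : L →+* L') (d : ℕ) :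
    coeffMap ι (jSeries L d) = jSeries L' d := by
  rw [jSeries, coeffMap_qScale, coeffMap_jqModC, jSeries]

theorem laurentBaseChange_full_eq_adjoin [Algebra ℚ L] (M : ℕ) [NeZero M] :
    laurentBaseChange L (modularFunctionFieldFull M) =
      IntermediateField.adjoin L (Set.range fun d : DivIdx M => jSeries L (d : ℕ)) := by
  have hgen : ∀ (d : ℕ) (_ : NeZero d), coeffEmb L (qExpand ℚ d jq) = jSeries L d := fun d hd => by
    rw [jSeries, qScale_eq, ← coeffEmb_jq_eq, coeffEmb, ModularCurve.coeffMap_qExpand]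
  apply le_antisymm
  · rw [laurentBaseChange, IntermediateField.adjoin_le_iff]
    rintro _ ⟨z, hz, rfl⟩
    induction hz using IntermediateField.adjoin_induction with
    | mem w hw =>
        obtain ⟨d, hne, hd, rfl⟩ := hw
        rw [hgen d hne]
        exact IntermediateField.subset_adjoin L _
          ⟨⟨d, Nat.mem_divisors.mpr ⟨hd, NeZero.ne M⟩⟩, rfl⟩
    | algebraMap c =>
        rw [algebraMap_apply_eq_single, coeffEmb, coeffMap_single,
          ← algebraMap_laurentSeries_eq_single]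
        exact IntermediateField.algebraMap_mem _ _
    | add x y _ _ hx hy => rw [map_add]; exact add_mem hx hy
    | inv x _ hx => rw [map_inv₀]; exact inv_mem hx
    | mul x y _ _ hx hy => rw [map_mul]; exact mul_mem hx hy
  · rw [IntermediateField.adjoin_le_iff]
    rintro _ ⟨d, rfl⟩
    show jSeries L (d : ℕ) ∈ _
    rw [← hgen (d : ℕ) inferInstance]
    exact coeffEmb_mem_laurentBaseChange L (jqd_mem_full M d.dvd)

/-- `d ↦ ℓ d`, `ℓ d ↦ d`. -/
def swapIdx (ℓ d : ℕ) : ℕ := if ℓ ∣ d then d / ℓ else d * ℓ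

theorem swapIdx_mul {ℓ : ℕ} (hℓ : 0 < ℓ) (d : ℕ) : swapIdx ℓ (d * ℓ) = d := by
  rw [swapIdx, if_pos (dvd_mul_left ℓ d), Nat.mul_div_cancel _ hℓ]

/-- The expansions at the swapping cusp. -/
theorem jSer_swap {N ℓ : ℕ} [NeZero N] [NeZero ℓ] (hℓ : ℓ.Prime) (hℓN : ¬ ℓ ∣ N) :
    ∃ γ : SL(2, ℤ), ∀ d : DivIdx (N * ℓ),
      FLTAgent.ModularCosets.jSer (N * ℓ) γ d = qScale ℂ N (jSeries ℂ (swapIdx ℓ d)) := by
  obtain ⟨x, y, hxy⟩ : ∃ x y : ℤ, (ℓ : ℤ) * x + (N : ℤ) * y = 1 := by
    refine ⟨Nat.gcdA ℓ N, Nat.gcdB ℓ N, ?_⟩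
    rw [← Nat.gcd_eq_gcd_ab, Nat.coprime_iff_gcd_eq_one.mp ((hℓ.coprime_iff_not_dvd).mpr hℓN)]
    rfl
  let γ : SL(2, ℤ) := ⟨!![x, -y; (N : ℤ), (ℓ : ℤ)], by
    rw [Matrix.det_fin_two_of]; linear_combination hxy⟩
  refine ⟨γ, fun d => ?_⟩
  have hℓ0 : 0 < ℓ := hℓ.pos
  have hdN : (d : ℕ) ∣ N * ℓ := d.dvd
  by_cases h : ℓ ∣ (d : ℕ)
  · obtain ⟨d', hd'⟩ := h
    have hd'N : d' ∣ N := Nat.dvd_of_mul_dvd_mul_left hℓ0 (by rw [← hd', mul_comm ℓ N]; exact hdN)
    obtain ⟨c, hc⟩ := hd'N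
    have hd'0 : d' ≠ 0 := fun h0 => NeZero.ne N (by rw [hc, h0, zero_mul])
    have hcN : (N : ℤ) = (d' : ℤ) * (c : ℤ) := by exact_mod_cast hc
    let g : SL(2, ℤ) := ⟨!![(ℓ : ℤ) * x, -((d' : ℤ) * y); (c : ℤ), 1], by
      rw [Matrix.det_fin_two_of]; rw [hcN] at hxy; linear_combination hxy⟩
    let t : FLTAgent.ModularCosets.TriData (d : ℕ) γ :=
      ⟨g, d', 0, ℓ, by rw [hd', mul_comm], hℓ0, by
        rw [hd']
        ext i j
        fin_cases i <;> fin_cases j <;>
          simp [γ, g, FLTAgent.ModularCosets.diagOne, FLTAgent.ModularCosets.upperTri,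
            Matrix.mul_apply, Fin.sum_univ_two, hcN] <;> ring⟩
    have hsw : swapIdx ℓ (d : ℕ) = d' := by rw [hd', mul_comm ℓ d', swapIdx_mul hℓ0]
    rw [FLTAgent.ModularCosets.jSer_eq _ γ d t, FLTAgent.ModularCosets.cuspExp_apply, hsw,
      jSeries, qScale_qScale (NeZero.ne N) hd'0]
    show qScale ℂ (d' * (N * ℓ / ℓ)) (FLTAgent.ModularCosets.twist _ _) = _
    rw [Nat.mul_div_cancel _ hℓ0, Nat.cast_zero, zero_mul, zpow_zero,
      FLTAgent.ModularCosets.twist_one, mul_comm d' N]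
  · have hdN' : (d : ℕ) ∣ N :=
      (Nat.Coprime.dvd_of_dvd_mul_right ((hℓ.coprime_iff_not_dvd.mpr h).symm) hdN)
    obtain ⟨c, hc⟩ := hdN'
    have hcN : (N : ℤ) = ((d : ℕ) : ℤ) * (c : ℤ) := by exact_mod_cast hc
    let g : SL(2, ℤ) := ⟨!![x, -(((d : ℕ) : ℤ) * y); (c : ℤ), (ℓ : ℤ)], by
      rw [Matrix.det_fin_two_of]; rw [hcN] at hxy; linear_combination hxy⟩
    let t : FLTAgent.ModularCosets.TriData (d : ℕ) γ :=
      ⟨g, d, 0, 1, Nat.mul_one _, Nat.one_pos, by
        ext i j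
        fin_cases i <;> fin_cases j <;>
          simp [γ, g, FLTAgent.ModularCosets.diagOne, FLTAgent.ModularCosets.upperTri,
            Matrix.mul_apply, Fin.sum_univ_two, hcN] <;> ring⟩
    rw [FLTAgent.ModularCosets.jSer_eq _ γ d t, FLTAgent.ModularCosets.cuspExp_apply, swapIdx,
      if_neg h, jSeries, qScale_qScale (NeZero.ne N) (Nat.mul_ne_zero (NeZero.ne _) hℓ0.ne')]
    show qScale ℂ ((d : ℕ) * (N * ℓ / 1)) (FLTAgent.ModularCosets.twist _ _) = _
    rw [Nat.div_one, Nat.cast_zero, zero_mul, zpow_zero, FLTAgent.ModularCosets.twist_one,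
      ← mul_assoc, mul_comm (d : ℕ) N, mul_assoc]

theorem jSer_one {M : ℕ} [NeZero M] (d : DivIdx M) :
    FLTAgent.ModularCosets.jSer M 1 d = qScale ℂ M (jSeries ℂ d) := by
  let t : FLTAgent.ModularCosets.TriData (d : ℕ) 1 :=
    ⟨1, d, 0, 1, Nat.mul_one _, Nat.one_pos, by
      ext i j
      fin_cases i <;> fin_cases j <;>
        simp [FLTAgent.ModularCosets.diagOne, FLTAgent.ModularCosets.upperTri,
          Matrix.mul_apply, Fin.sum_univ_two]⟩
  rw [FLTAgent.ModularCosets.jSer_eq _ 1 d t, FLTAgent.ModularCosets.cuspExp_apply, jSeries,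
    qScale_qScale (NeZero.ne M) (NeZero.ne _)]
  show qScale ℂ ((d : ℕ) * (M / 1)) (FLTAgent.ModularCosets.twist _ _) = _
  rw [Nat.div_one, Nat.cast_zero, zero_mul, zpow_zero, FLTAgent.ModularCosets.twist_one,
    mul_comm (d : ℕ) M]

/-- The swap preserves polynomial relations. -/
theorem aeval_swap_eq_zero_iff {N ℓ : ℕ} [NeZero N] [NeZero ℓ] (hℓ : ℓ.Prime) (hℓN : ¬ ℓ ∣ N)
    (ι : L →+* ℂ) (P : MvPolynomial (DivIdx (N * ℓ)) L) :
    MvPolynomial.aeval (fun d : DivIdx (N * ℓ) => jSeries L (swapIdx ℓ d)) P = 0 ↔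
      MvPolynomial.aeval (fun d : DivIdx (N * ℓ) => jSeries L (d : ℕ)) P = 0 := by
  obtain ⟨γ, hγ⟩ := jSer_swap hℓ hℓN
  have hmap : ∀ (m : ℕ) (f : DivIdx (N * ℓ) → ℕ),
      qScale ℂ m (coeffMap ι (MvPolynomial.aeval (fun d => jSeries L (f d)) P)) =
        MvPolynomial.aeval (fun d => qScale ℂ m (jSeries ℂ (f d))) (MvPolynomial.map ι P) := by
    intro m f
    induction P using MvPolynomial.induction_on with
    | C c =>
        simp only [MvPolynomial.aeval_C, MvPolynomial.map_C]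
        rw [coeffMap_algebraMap', algebraMap_laurentSeries_eq_single]
        exact FLTAgent.ModularCosets.qScale_C m (ι c)
    | add P Q hP hQ => simp only [map_add, hP, hQ]
    | mul_X P d hP =>
        simp only [map_mul, MvPolynomial.map_X, MvPolynomial.aeval_X, hP, coeffMap_jSeries]
  have hinj : ∀ (m : ℕ) (z : LaurentSeries L), qScale ℂ m (coeffMap ι z) = 0 ↔ z = 0 := fun m z =>
    ⟨fun h => by
      have h' := qScale_injective m (h.trans (map_zero (qScale ℂ m)).symm)
      exact HahnSeries.ext (funext fun i => ι.injective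
        ((congrArg (fun w : LaurentSeries ℂ => w.coeff i) h').trans (map_zero ι).symm)),
      fun h => by rw [h, map_zero, map_zero]⟩
  have h1 : FLTAgent.ModularCosets.serEval (N * ℓ) γ (MvPolynomial.map ι P) =
      qScale ℂ N (coeffMap ι (MvPolynomial.aeval (fun d : DivIdx (N * ℓ) => jSeries L (swapIdx ℓ d)) P)) := by
    rw [hmap N (fun d => swapIdx ℓ d), FLTAgent.ModularCosets.serEval, funext hγ]
  have h2 : FLTAgent.ModularCosets.serEval (N * ℓ) 1 (MvPolynomial.map ι P) =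
      qScale ℂ (N * ℓ) (coeffMap ι (MvPolynomial.aeval (fun d : DivIdx (N * ℓ) => jSeries L (d : ℕ)) P)) := by
    rw [hmap (N * ℓ) (fun d => (d : ℕ)), FLTAgent.ModularCosets.serEval, funext jSer_one]
  have h3 := FLTAgent.ModularCosets.serEval_eq_zero_iff γ (MvPolynomial.map ι P)
  rw [h1, h2, hinj, hinj] at h3
  exact h3

/-- Two families with the same relations give an embedding of the generated field. -/
theorem exists_ringHom_of_relations {K Ω ι : Type*} [Field K] [Field Ω] [Algebra K Ω]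
    (f g : ι → Ω)
    (hfg : ∀ P : MvPolynomial ι K, MvPolynomial.aeval g P = 0 ↔ MvPolynomial.aeval f P = 0) :
    ∃ e : IntermediateField.adjoin K (Set.range f) →ₐ[K] Ω,
      ∀ i, e ⟨f i, IntermediateField.subset_adjoin K _ ⟨i, rfl⟩⟩ = g i := by
  classical
  set B := Algebra.adjoin K (Set.range f) with hB
  have hrange : B = (MvPolynomial.aeval f).range := Algebra.adjoin_range_eq_range_aeval K f
  have hex : ∀ b : B, ∃ P : MvPolynomial ι K, MvPolynomial.aeval f P = (b : Ω) := fun b => by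
    exact hrange.le b.2
  choose P hP using hex
  have hwell : ∀ (b : B) (Q : MvPolynomial ι K), MvPolynomial.aeval f Q = (b : Ω) →
      MvPolynomial.aeval g (P b) = MvPolynomial.aeval g Q := fun b Q hQ => by
    rw [← sub_eq_zero, ← map_sub, hfg, map_sub, hP, hQ, sub_self]
  let φ : B →ₐ[K] Ω :=
    { toFun := fun b => MvPolynomial.aeval g (P b)
      map_one' := (hwell 1 1 (map_one _)).trans (map_one _)
      map_mul' := fun a b => (hwell (a * b) (P a * P b) (by rw [map_mul, hP, hP]; rfl)).trans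
        (map_mul _ _ _)
      map_zero' := (hwell 0 0 (map_zero _)).trans (map_zero _)
      map_add' := fun a b => (hwell (a + b) (P a + P b) (by rw [map_add, hP, hP]; rfl)).trans
        (map_add _ _ _)
      commutes' := fun c => (hwell _ (MvPolynomial.C c) (MvPolynomial.aeval_C _ _)).trans
        (MvPolynomial.aeval_C _ _) }
  have hφ : Function.Injective φ := by
    rw [injective_iff_map_eq_zero]
    intro b hb
    exact Subtype.ext ((hP b).symm.trans ((hfg _).mp hb))
  open scoped IntermediateField.algebraAdjoinAdjoin in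
  let e : IntermediateField.adjoin K (Set.range f) →ₐ[K] Ω := IsFractionRing.liftAlgHom hφ
  refine ⟨e, fun i => ?_⟩
  have hi : f i ∈ B := Algebra.subset_adjoin ⟨i, rfl⟩
  refine Eq.trans ?_ ((hwell ⟨f i, hi⟩ (MvPolynomial.X i) (MvPolynomial.aeval_X _ _)).trans
    (MvPolynomial.aeval_X _ _))
  exact IsFractionRing.lift_algebraMap hφ (⟨f i, hi⟩ : B)

variable [Algebra ℚ L]

/-- The Atkin–Lehner swap exists. -/
theorem hasSwap (ι : L →+* ℂ) {N ℓ : ℕ} [NeZero N] [NeZero ℓ] (hℓ : ℓ.Prime) (hℓN : ¬ ℓ ∣ N) :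
    HasSwap L N ℓ := by
  obtain ⟨e, he⟩ := exists_ringHom_of_relations (K := L)
    (fun d : DivIdx (N * ℓ) => jSeries L (d : ℕ))
    (fun d : DivIdx (N * ℓ) => jSeries L (swapIdx ℓ d))
    (aeval_swap_eq_zero_iff L hℓ hℓN ι)
  let c := IntermediateField.equivOfEq (laurentBaseChange_full_eq_adjoin L (N * ℓ))
  refine ⟨(e.comp c.toAlgHom).toRingHom, fun y => ?_⟩
  have hℓ0 : 0 < ℓ := hℓ.pos
  -- check on the generators
  let ea : laurentBaseChange L (modularFunctionFieldFull N) →ₐ[L] LaurentSeries L :=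
    (e.comp c.toAlgHom).comp (heckeAlphaBar L N ℓ)
  let eb : laurentBaseChange L (modularFunctionFieldFull N) →ₐ[L] LaurentSeries L :=
    (e.comp c.toAlgHom).comp (heckeBetaBar L N ℓ)
  let qa : laurentBaseChange L (modularFunctionFieldFull N) →ₐ[L] LaurentSeries L :=
    (qExpandAlgHomC L ℓ).comp (IntermediateField.val _)
  suffices h : ea = qa ∧ eb = IntermediateField.val _ from
    ⟨DFunLike.congr_fun h.1 y, DFunLike.congr_fun h.2 y⟩
  have hle := laurentBaseChange_full_eq_adjoin L N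
  have hext : ∀ φ ψ : laurentBaseChange L (modularFunctionFieldFull N) →ₐ[L] LaurentSeries L,
      (∀ (d : DivIdx N) (h : jSeries L (d : ℕ) ∈ laurentBaseChange L (modularFunctionFieldFull N)),
        φ ⟨_, h⟩ = ψ ⟨_, h⟩) → φ = ψ := fun φ ψ h => by
    let c' := (IntermediateField.equivOfEq hle).symm.toAlgHom
    have := IntermediateField.algHom_ext_of_eq_adjoin L rfl
      (φ₁ := φ.comp c') (φ₂ := ψ.comp c') (fun z hz => by
        obtain ⟨d, rfl⟩ := hz
        exact h d _)
    refine AlgHom.ext fun z => ?_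
    have hz := DFunLike.congr_fun this (IntermediateField.equivOfEq hle z)
    simpa [c'] using hz
  have hval : ∀ (d : ℕ) (hd : d ∈ (N * ℓ).divisors)
      (z : laurentBaseChange L (modularFunctionFieldFull (N * ℓ))),
      (z : LaurentSeries L) = jSeries L d →
        e (c z) = jSeries L (swapIdx ℓ d) := fun d hd z hz => by
    rw [← he ⟨d, hd⟩]
    exact congrArg e (Subtype.ext hz)
  constructor
  · refine hext _ _ fun d h => ?_
    have hd : (d : ℕ) ∈ (N * ℓ).divisors :=
      Nat.mem_divisors.mpr ⟨d.dvd.mul_right ℓ, Nat.mul_ne_zero (NeZero.ne N) hℓ0.ne'⟩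
    refine (hval (d : ℕ) hd (heckeAlphaBar L N ℓ ⟨_, h⟩) (coe_heckeAlphaBar N ℓ _)).trans ?_
    show jSeries L (swapIdx ℓ d) = qExpand L ℓ (jSeries L (d : ℕ))
    rw [swapIdx, if_neg (fun h' => hℓN (h'.trans d.dvd)), jSeries, jSeries,
      ← qScale_eq ℓ, qScale_qScale hℓ0.ne' (NeZero.ne _), mul_comm ℓ]
  · refine hext _ _ fun d h => ?_
    have hd : (d : ℕ) * ℓ ∈ (N * ℓ).divisors :=
      Nat.mem_divisors.mpr ⟨mul_dvd_mul_right d.dvd ℓ, Nat.mul_ne_zero (NeZero.ne N) hℓ0.ne'⟩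
    refine (hval _ hd (heckeBetaBar L N ℓ ⟨_, h⟩) ?_).trans ?_
    · rw [coe_heckeBetaBar]
      show qExpand L ℓ (jSeries L (d : ℕ)) = jSeries L ((d : ℕ) * ℓ)
      rw [jSeries, jSeries, ← qScale_eq ℓ, qScale_qScale hℓ0.ne' (NeZero.ne _), mul_comm ℓ]
    · rw [swapIdx_mul hℓ0]
      rfl

end FLTAgent.Kronecker
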