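import Fermat.Agent.Kronecker.Congruence
import Fermat.Agent.Kronecker.Swap
import Fermat.Agent.Kronecker.Inputs
import Fermat.Agent.Kronecker.SpecialFibre
import Fermat.Prelude.Def_ModularCurve_HeckeModule

/-!
# The Eichler–Shimura relation and specialization of `J₀(N)`

At a prime `ℓ ∤ N`, reduction is Galois equivariant (`reductionModL_smul`) and turns `T_ℓ` into
`F + ℓ F⁻¹` (`reductionModL_heckeOperatorBar`).  With injectivity on torsion prime to `ℓ` this
gives `inertia_smul_torsion` and `frobenius_quadratic_torsion` on `p`-power torsion, and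
`specializationExists`, with the formal special fibre as target.
-/

set_option autoImplicit false
set_option linter.style.haveILetI false

noncomputable section

open ModularCurve AlgebraicCurve

namespace FLTAgent.Kronecker

local notation "Qb" => AlgebraicClosure ℚ
local notation "Γℚ" => (AlgebraicClosure ℚ ≃ₐ[ℚ] AlgebraicClosure ℚ)

/-- An embedding of `ℚ̄` into `ℂ`. -/
def embComplex : AlgebraicClosure ℚ →+* ℂ :=
  haveI : Algebra.IsAlgebraic ℚ (AlgebraicClosure ℚ) := AlgebraicClosure.isAlgebraic ℚ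
  (IsAlgClosed.lift : AlgebraicClosure ℚ →ₐ[ℚ] ℂ).toRingHom

/-- An additive action commutes with natural multiples. -/
theorem smul_nsmul_comm {G V : Type*} [Monoid G] [AddCommGroup V] [DistribMulAction G V] (g : G)
    (n : ℕ) (v : V) : g • (n • v) = n • (g • v) :=
  map_nsmul (DistribSMul.toAddMonoidHom V g) n v

theorem galois_smul_nsmul (N : ℕ) (σ : Γℚ) (n : ℕ) (x : JZero N) : σ • (n • x) = n • (σ • x) :=
  smul_nsmul_comm σ n x

theorem galois_smul_zero (N : ℕ) (σ : Γℚ) : σ • (0 : JZero N) = 0 :=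
  map_zero (DistribSMul.toAddMonoidHom (JZero N) σ)

set_option maxHeartbeats 1600000
set_option synthInstance.maxHeartbeats 400000

variable {N : ℕ} [NeZero N] {ℓ : ℕ} {A : ValuationSubring (AlgebraicClosure ℚ)}

/-- The automorphism of the residue field induced by an element of the decomposition group. -/
def resAut (A : ValuationSubring (AlgebraicClosure ℚ)) (g : A.decompositionSubgroup ℚ) :
    RingAut (IsLocalRing.ResidueField A) :=
  MulSemiringAction.toRingEquiv (A.decompositionSubgroup ℚ) (IsLocalRing.ResidueField A) g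

theorem resAut_apply (g : A.decompositionSubgroup ℚ) (x : IsLocalRing.ResidueField A) :
    resAut A g x = g • x := rfl

theorem resAut_eq_one_of_mem_inertia {σ : Γℚ} (hσ : σ ∈ A.inertiaSubgroupIn ℚ) :
    ∃ g : A.decompositionSubgroup ℚ, (g : Γℚ) = σ ∧ resAut A g = 1 := by
  obtain ⟨g, hg, rfl⟩ := hσ
  exact ⟨g, rfl, RingEquiv.ext fun x => DFunLike.congr_fun (MonoidHom.mem_ker.mp hg) x⟩

/-- Galois equivariance of the reduction map on `J₀(N)`. -/
theorem reductionModL_smul (h : ReductionInputsModL A N) (g : A.decompositionSubgroup ℚ)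
    (x : JZero N) :
    reductionModL A N ((g : Γℚ) • x) = coeffGalois N (resAut A g) • reductionModL A N x := by
  haveI := hasPrincipalDivisors_bar N
  rw [reductionModL, reductionAlong_eq h]
  exact reductionPic0Along_smul h.choose_spec.1 h.choose_spec.2 (deg_eq_one_bar N)
    (hasRiemannBound_bar N) (g : Γℚ)
    (MulSemiringAction.toRingHom (A.decompositionSubgroup ℚ) A g) (fun _ => rfl)
    (resAut A g) (fun a => (GalCommon.smul_residue_eq g a).symm) x

theorem exists_primitiveRoot (hℓ : ℓ.Prime) (A : ValuationSubring (AlgebraicClosure ℚ)) :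
    ∃ ζ : A, IsPrimitiveRoot ζ ℓ := by
  haveI : NeZero ℓ := ⟨hℓ.ne_zero⟩
  obtain ⟨ζ, hζ⟩ := HasEnoughRootsOfUnity.exists_primitiveRoot Qb ℓ
  exact ⟨⟨ζ, GalCommon.mem_of_isIntegral A (hζ.isIntegral hℓ.pos)⟩,
    IsPrimitiveRoot.of_map_of_injective (f := A.subtype) hζ Subtype.val_injective⟩

/-- Modulo `ℓ`, `T_ℓ = F + ℓ F⁻¹`. -/
theorem reductionModL_heckeOperatorBar [Fact ℓ.Prime] (hℓN : ¬ ℓ ∣ N)
    [CharP (IsLocalRing.ResidueField A) ℓ] [PerfectRing (IsLocalRing.ResidueField A) ℓ]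
    (h : ReductionInputsModL A N) (x : JZero N) :
    reductionModL A N (heckeOperatorBar N ⟨ℓ, Fact.out⟩ x) =
      coeffGalois N (frobeniusEquiv (IsLocalRing.ResidueField A) ℓ) • reductionModL A N x +
        ℓ • (coeffGalois N (frobeniusEquiv (IsLocalRing.ResidueField A) ℓ))⁻¹ •
          reductionModL A N x := by
  haveI : NeZero ℓ := ⟨(Fact.out : ℓ.Prime).ne_zero⟩
  haveI := hasPrincipalDivisors_bar N
  obtain ⟨hα, hβ, hP, hfin, hFI, hN⟩ := heckeInputs_bar N ℓ
  haveI := hP
  obtain ⟨ζ, hζ⟩ := exists_primitiveRoot (Fact.out : ℓ.Prime) A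
  rw [show heckeOperatorBar N ⟨ℓ, Fact.out⟩ x = heckeOperatorAlong Qb N ℓ x from rfl,
    heckeOperatorAlong_eq hα hβ hFI hfin hN, reductionModL,
    reductionAlong_eq h]
  exact reductionPic0Along_heckePic0Bar h.choose_spec.1 h.choose_spec.2 (deg_eq_one_bar N)
    (hasRiemannBound_bar N) hα hβ hFI hfin hN (finrankAlong_alpha N Fact.out hℓN)
    (hasSwap Qb embComplex Fact.out hℓN) ζ hζ x

/-- `red (T_ℓ y) = F (red y) + ℓ F⁻¹ (red y)` in the form `F² - T F + ℓ = 0`. -/
theorem frobenius_relation [Fact ℓ.Prime] (hℓN : ¬ ℓ ∣ N)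
    [CharP (IsLocalRing.ResidueField A) ℓ] [PerfectRing (IsLocalRing.ResidueField A) ℓ]
    (h : ReductionInputsModL A N) (y : JZero N) :
    let g := coeffGalois N (frobeniusEquiv (IsLocalRing.ResidueField A) ℓ)
    g • g • reductionModL A N y - g • reductionModL A N (heckeOperatorBar N ⟨ℓ, Fact.out⟩ y) +
      ℓ • reductionModL A N y = 0 := by
  intro g
  have hn : g • (ℓ • g⁻¹ • reductionModL A N y) = ℓ • reductionModL A N y := by
    rw [smul_nsmul_comm, smul_inv_smul]
  rw [reductionModL_heckeOperatorBar hℓN h, smul_add, hn]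
  abel

theorem resAut_eq_frobenius [Fact ℓ.Prime]
    [CharP (IsLocalRing.ResidueField A) ℓ] [PerfectRing (IsLocalRing.ResidueField A) ℓ]
    {σ : Γℚ} (hσ : A.IsFrobeniusAt σ ℓ) :
    resAut A ⟨σ, hσ.mem_decompositionSubgroup⟩ =
      frobeniusEquiv (IsLocalRing.ResidueField A) ℓ :=
  RingEquiv.ext fun x => (hσ.smul_residue_eq x).trans (frobenius_def (R := IsLocalRing.ResidueField A) ℓ x).symm

/-- Inertia at `ℓ ∤ N p` fixes the `p`-power torsion of `J₀(N)`. -/
theorem inertia_smul_torsion {p : ℕ} (hℓ : ℓ.Prime) (hℓNp : ¬ ℓ ∣ N * p)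
    (hA : A.LiesOverPrime ℓ) {σ : Γℚ} (hσ : σ ∈ A.inertiaSubgroupIn ℚ) {x : JZero N} {n : ℕ}
    (hx : p ^ n • x = 0) : σ • x = x := by
  have hℓN : ¬ ℓ ∣ N := fun h => hℓNp (h.mul_right p)
  have h := reductionInputs N hℓ hℓN hA
  obtain ⟨g, rfl, hg⟩ := resAut_eq_one_of_mem_inertia hσ
  rw [← sub_eq_zero]
  refine torsion_injective N hℓ hℓN hA h (m := p ^ n)
    (fun hd => hℓNp ((hℓ.dvd_of_dvd_pow hd).mul_left N)) ?_ ?_
  · rw [nsmul_sub, ← galois_smul_nsmul, hx, galois_smul_zero, sub_self]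
  · rw [map_sub, reductionModL_smul h, hg, map_one, one_smul, sub_self]

/-- The Eichler–Shimura relation on the `p`-power torsion of `J₀(N)`. -/
theorem frobenius_quadratic_torsion {p : ℕ} (hℓ : ℓ.Prime) (hℓNp : ¬ ℓ ∣ N * p)
    (hA : A.LiesOverPrime ℓ) {σ : Γℚ} (hσ : A.IsFrobeniusAt σ ℓ) {x : JZero N} {n : ℕ}
    (hx : p ^ n • x = 0) :
    σ • σ • x - heckeOperatorBar N ⟨ℓ, hℓ⟩ (σ • x) + ℓ • x = 0 := by
  have hℓN : ¬ ℓ ∣ N := fun h => hℓNp (h.mul_right p)
  have h := reductionInputs N hℓ hℓN hA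
  haveI := Fact.mk hℓ
  haveI := GalCommon.charP_residueField hℓ hA
  haveI : ExpChar (IsLocalRing.ResidueField A) ℓ := .prime hℓ
  haveI := GalCommon.isAlgClosed_residueField A hℓ hA
  refine torsion_injective N hℓ hℓN hA h (m := p ^ n)
    (fun hd => hℓNp ((hℓ.dvd_of_dvd_pow hd).mul_left N)) ?_ ?_
  · have h1 : p ^ n • (σ • x) = 0 := by rw [← galois_smul_nsmul, hx, galois_smul_zero]
    have h2 : p ^ n • (σ • σ • x) = 0 := by rw [← galois_smul_nsmul, h1, galois_smul_zero]
    rw [nsmul_add, nsmul_sub, h2, ← map_nsmul, h1, map_zero, ← mul_nsmul', mul_nsmul, hx,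
      nsmul_zero, sub_self, zero_add]
  · have hs : ∀ y, reductionModL A N (σ • y) =
        coeffGalois N (frobeniusEquiv (IsLocalRing.ResidueField A) ℓ) • reductionModL A N y :=
      fun y => by
        rw [← resAut_eq_frobenius hσ]
        exact reductionModL_smul h ⟨σ, hσ.mem_decompositionSubgroup⟩ y
    rw [map_add, map_sub, map_nsmul, reductionModL_heckeOperatorBar hℓN h, hs, hs,
      inv_smul_smul]
    abel

/-- The Eichler–Shimura specialization of `J₀(N)`. -/
theorem specializationExists (N p : ℕ) [NeZero N] (hcomm : HeckeOperatorsCommuteBar N) :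
    letI := heckeModuleBar N
    ∀ (_ : SMulCommClass Γℚ HeckeAlg (JZero N)),
      SpecializationExists (K := ℚ) (L := Qb) N p (JZero N) := by
  letI := heckeModuleBar N
  intro hsmul ℓ hℓ hℓNp A hA
  have hℓN : ¬ ℓ ∣ N := fun h => hℓNp (h.mul_right p)
  have h := reductionInputs N hℓ hℓN hA
  haveI := Fact.mk hℓ
  haveI := GalCommon.charP_residueField hℓ hA
  haveI : ExpChar (IsLocalRing.ResidueField A) ℓ := .prime hℓ
  haveI := GalCommon.isAlgClosed_residueField A hℓ hA
  let g := coeffGalois N (frobeniusEquiv (IsLocalRing.ResidueField A) ℓ)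
  let G : JZeroC (IsLocalRing.ResidueField A) N →+ JZeroC (IsLocalRing.ResidueField A) N :=
    DistribSMul.toAddMonoidHom _ g
  have hrel : ∀ y : JZero N, G (G (reductionModL A N y)) -
      G (reductionModL A N (heckeGen ⟨ℓ, hℓ⟩ • y)) + ℓ • reductionModL A N y = 0 := fun y => by
    rw [show heckeGen ⟨ℓ, hℓ⟩ • y = heckeOperatorBar N ⟨ℓ, hℓ⟩ y from
      heckeModuleBar_heckeGen_smul hcomm _ y]
    exact frobenius_relation hℓN h y
  let sp := toSpecialFibre G (heckeGen ⟨ℓ, hℓ⟩) ℓ (reductionModL A N) hrel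
  have hsp : ∀ (τ : A.decompositionSubgroup ℚ) (x : JZero N) (s : HeckeAlg),
      reductionModL A N (s • (τ : Γℚ) • x) =
        coeffGalois N (resAut A τ) • reductionModL A N (s • x) := fun τ x s => by
    rw [← smul_comm (τ : Γℚ) s x, reductionModL_smul h]
  refine ⟨_, inferInstance, inferInstance, sp, fibreOp G (heckeGen ⟨ℓ, hℓ⟩) ℓ,
    ⟨fun t x => ?_, fun σ hσ x => ?_, fun σ hσ x => ?_, fun x hx hx0 => ?_⟩,
    fun y => fibreOp_relation G (heckeGen ⟨ℓ, hℓ⟩) ℓ y⟩
  · refine Subtype.ext (AddMonoidHom.ext fun s => ?_)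
    show reductionModL A N (s • t • x) = reductionModL A N ((s * t) • x)
    rw [mul_smul]
  · obtain ⟨τ, rfl, hτ⟩ := resAut_eq_one_of_mem_inertia hσ
    refine Subtype.ext (AddMonoidHom.ext fun s => ?_)
    show reductionModL A N (s • (τ : Γℚ) • x) = reductionModL A N (s • x)
    rw [hsp, hτ, map_one, one_smul]
  · refine Subtype.ext (AddMonoidHom.ext fun s => ?_)
    show reductionModL A N (s • σ • x) = g • reductionModL A N (s • x)
    rw [show g = coeffGalois N (resAut A ⟨σ, hσ.mem_decompositionSubgroup⟩) by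
      rw [resAut_eq_frobenius hσ]]
    exact hsp ⟨σ, hσ.mem_decompositionSubgroup⟩ x s
  · obtain ⟨n, hn⟩ := hx
    have h1 : reductionModL A N ((1 : HeckeAlg) • x) = 0 :=
      DFunLike.congr_fun (congrArg Subtype.val hx0) (1 : HeckeAlg)
    rw [one_smul] at h1
    exact torsion_injective N hℓ hℓN hA h
      (fun hd => hℓNp ((hℓ.dvd_of_dvd_pow hd).mul_left N)) hn h1

end FLTAgent.Kronecker
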