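import Mathlib
import Fermat.Prelude.Def_ModularCurve_X0ModL
import Fermat.Prelude.Def_AlgebraicCurve_BaseChangeGalois

/-!
# Coefficient automorphisms, twists and Frobenius on Laurent series

* `coeffGalois`: the semilinear action of `Aut k` on `k(X₀(N))` through the coefficients of the
  `q`-expansions.
* `twist u`: the ring endomorphism `x(q) ↦ x(u q)` of Laurent series.
* `pow_char_eq_qExpand`: in characteristic `ℓ`, `y ^ ℓ = y^φ(q^ℓ)` with `φ` the Frobenius of the
  coefficient field.
-/

set_option autoImplicit false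
set_option linter.style.haveILetI false

noncomputable section

open ModularCurve AlgebraicCurve IntermediateField

namespace FLTAgent.Kronecker

/-! ### Automorphisms of the coefficients -/

section CoeffGalois

variable {k k' : Type*} [Field k] [Field k'] (N : ℕ)

theorem coeffMap_algebraMap' (τ : k →+* k') (c : k) :
    coeffMap τ (algebraMap k (LaurentSeries k) c) = algebraMap k' (LaurentSeries k') (τ c) := by
  rw [algebraMap_laurentSeries_eq_single, algebraMap_laurentSeries_eq_single, coeffMap_single]

theorem coeffMap_mem_fullC (τ : k →+* k') {x : LaurentSeries k}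
    (hx : x ∈ modularFunctionFieldFullC k N) :
    coeffMap τ x ∈ modularFunctionFieldFullC k' N := by
  induction hx using IntermediateField.adjoin_induction with
  | mem y hy =>
      obtain ⟨d, hne, hd, rfl⟩ := hy
      rw [ModularCurve.coeffMap_qExpand, coeffMap_jqModC]
      exact jqModCd_mem_full k' N hd
  | algebraMap c =>
      rw [coeffMap_algebraMap']
      exact IntermediateField.algebraMap_mem _ _
  | add x y _ _ hx hy => rw [map_add]; exact add_mem hx hy
  | inv x _ hx => rw [map_inv₀]; exact inv_mem hx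
  | mul x y _ _ hx hy => rw [map_mul]; exact mul_mem hx hy

/-- A field automorphism of `k` acting on the coefficients. -/
def coeffRingAut (τ : k ≃+* k) :
    modularFunctionFieldFullC k N ≃+* modularFunctionFieldFullC k N where
  toFun x := ⟨coeffMap (τ : k →+* k) (x : LaurentSeries k), coeffMap_mem_fullC N _ x.2⟩
  invFun x := ⟨coeffMap (τ.symm : k →+* k) (x : LaurentSeries k), coeffMap_mem_fullC N _ x.2⟩
  left_inv _ := Subtype.ext <| HahnSeries.ext <| funext fun _ => τ.symm_apply_apply _
  right_inv _ := Subtype.ext <| HahnSeries.ext <| funext fun _ => τ.apply_symm_apply _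
  map_mul' x y := Subtype.ext (map_mul (coeffMap (τ : k →+* k)) (x : LaurentSeries k) y)
  map_add' x y := Subtype.ext (map_add (coeffMap (τ : k →+* k)) (x : LaurentSeries k) y)

@[simp]
theorem coe_coeffRingAut_apply (τ : k ≃+* k) (x : modularFunctionFieldFullC k N) :
    (coeffRingAut N τ x : LaurentSeries k) = coeffMap (τ : k →+* k) (x : LaurentSeries k) :=
  rfl

/-- The semilinear action of `Aut k` on `k(X₀(N))` through the coefficients. -/
def coeffGalois : RingAut k →* SemilinearAut k (modularFunctionFieldFullC k N) where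
  toFun τ := ⟨(coeffRingAut N τ, τ), fun a => Subtype.ext (coeffMap_algebraMap' (τ : k →+* k) a)⟩
  map_one' := by
    refine Subtype.ext (Prod.ext (RingEquiv.ext fun x => Subtype.ext ?_) rfl)
    exact HahnSeries.ext (funext fun _ => rfl)
  map_mul' σ τ := by
    refine Subtype.ext (Prod.ext (RingEquiv.ext fun x => Subtype.ext ?_) rfl)
    exact HahnSeries.ext (funext fun _ => rfl)

theorem coe_coeffGalois_smul (τ : RingAut k) (x : modularFunctionFieldFullC k N) :
    ((coeffGalois N τ • x : modularFunctionFieldFullC k N) : LaurentSeries k) =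
      coeffMap (τ : k →+* k) (x : LaurentSeries k) :=
  rfl

end CoeffGalois

/-! ### Twists `q ↦ u q` -/

section Twist

variable {R S : Type*} [CommRing R] [CommRing S]

/-- The series `x(u q)`. -/
def twistFun (u : Rˣ) (x : LaurentSeries R) : LaurentSeries R where
  coeff i := ((u ^ i : Rˣ) : R) * x.coeff i
  isPWO_support' := x.isPWO_support.mono fun i hi h => hi (by simp [h])

theorem twistFun_coeff (u : Rˣ) (x : LaurentSeries R) (i : ℤ) :
    (twistFun u x).coeff i = ((u ^ i : Rˣ) : R) * x.coeff i :=
  rfl

theorem support_twistFun_subset (u : Rˣ) (x : LaurentSeries R) :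
    (twistFun u x).support ⊆ x.support := fun i hi h => hi (by simp [twistFun_coeff, h])

theorem twistFun_mul (u : Rˣ) (x y : LaurentSeries R) :
    twistFun u (x * y) = twistFun u x * twistFun u y := by
  ext i
  rw [HahnSeries.coeff_mul_left' x.isPWO_support (support_twistFun_subset u x), twistFun_coeff,
    HahnSeries.coeff_mul, Finset.mul_sum]
  symm
  refine Finset.sum_subset_zero_on_sdiff ?_ ?_ ?_
  · intro ij
    simp only [Finset.mem_antidiagonal, and_imp]
    exact fun h1 h2 h3 => ⟨h1, support_twistFun_subset u y h2, h3⟩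
  · intro ij hij
    simp only [Finset.mem_sdiff, Finset.mem_antidiagonal, not_and] at hij
    have hy : (twistFun u y).coeff ij.2 = 0 := by
      by_contra h
      exact hij.2 hij.1.1 h hij.1.2.2
    rw [twistFun_coeff, Units.mul_right_eq_zero] at hy
    rw [hy, mul_zero, mul_zero]
  · intro ij hij
    simp only [Finset.mem_antidiagonal] at hij
    rw [twistFun_coeff, twistFun_coeff, ← hij.2.2, zpow_add, Units.val_mul]
    ring

/-- The ring endomorphism `x(q) ↦ x(u q)` of Laurent series. -/
def twist (u : Rˣ) : LaurentSeries R →+* LaurentSeries R where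
  toFun := twistFun u
  map_one' := by
    ext i
    rcases eq_or_ne i 0 with rfl | hi
    · simp [twistFun_coeff]
    · simp [twistFun_coeff, HahnSeries.coeff_one, hi]
  map_mul' := twistFun_mul u
  map_zero' := by ext i; simp [twistFun_coeff]
  map_add' x y := by ext i; simp [twistFun_coeff, mul_add]

@[simp]
theorem twist_coeff (u : Rˣ) (x : LaurentSeries R) (i : ℤ) :
    (twist u x).coeff i = ((u ^ i : Rˣ) : R) * x.coeff i :=
  rfl

theorem twist_one (x : LaurentSeries R) : twist (1 : Rˣ) x = x := by
  ext i
  simp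

theorem twist_qExpand {u : Rˣ} {n : ℕ} [NeZero n] (hu : u ^ n = 1) (x : LaurentSeries R) :
    twist u (qExpand R n x) = qExpand R n x := by
  ext i
  by_cases hi : (n : ℤ) ∣ i
  · obtain ⟨m, rfl⟩ := hi
    rw [twist_coeff, zpow_mul, zpow_natCast, hu, one_zpow, Units.val_one, one_mul]
  · rw [twist_coeff, qExpand_coeff_of_not_dvd n _ hi, mul_zero]

theorem coeffMap_twist (f : R →+* S) (u : Rˣ) (x : LaurentSeries R) :
    coeffMap f (twist u x) = twist (Units.map (f : R →* S) u) (coeffMap f x) := by
  ext i
  simp [← map_zpow]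

end Twist

/-! ### Frobenius on Laurent series -/

section Frobenius

variable {k : Type*} [Field k] (ℓ : ℕ) [Fact ℓ.Prime] [CharP k ℓ]

instance charP_laurentSeries : CharP (LaurentSeries k) ℓ :=
  charP_of_injective_ringHom (HahnSeries.C_injective (Γ := ℤ) (R := k)) ℓ

theorem ofPowerSeries_pow_char (f : PowerSeries k) :
    HahnSeries.ofPowerSeries ℤ k f ^ ℓ =
      qExpand k ℓ (coeffMap (frobenius k ℓ) (HahnSeries.ofPowerSeries ℤ k f)) := by
  haveI : NeZero ℓ := ⟨(Fact.out : ℓ.Prime).ne_zero⟩
  have hp : ℓ ≠ 0 := NeZero.ne ℓ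
  have hpow : (PowerSeries.expand ℓ hp f).map (frobenius k ℓ) = f ^ ℓ :=
    MvPowerSeries.map_frobenius_expand ℓ hp
  rw [← map_pow, ← hpow, PowerSeries.map_expand, coeffMap_ofPowerSeries]
  ext i
  set g := f.map (frobenius k ℓ)
  by_cases hi : (ℓ : ℤ) ∣ i
  · obtain ⟨m, rfl⟩ := hi
    rw [qExpand_coeff_mul]
    rcases le_or_gt 0 m with hm | hm
    · lift m to ℕ using hm
      rw [← Nat.cast_mul, HahnSeries.ofPowerSeries_apply_coeff,
        HahnSeries.ofPowerSeries_apply_coeff, PowerSeries.coeff_expand_mul]
    · rw [ofPowerSeries_coeff_of_neg _ hm, ofPowerSeries_coeff_of_neg]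
      exact mul_neg_of_pos_of_neg (by exact_mod_cast Nat.pos_of_ne_zero hp) hm
  · rw [qExpand_coeff_of_not_dvd ℓ _ hi]
    rcases le_or_gt 0 i with hi0 | hi0
    · lift i to ℕ using hi0
      rw [HahnSeries.ofPowerSeries_apply_coeff, PowerSeries.coeff_expand_of_not_dvd]
      exact fun h => hi (Int.natCast_dvd_natCast.mpr h)
    · exact ofPowerSeries_coeff_of_neg _ hi0

/-- `y ^ ℓ = y^φ(q^ℓ)` in characteristic `ℓ`. -/
theorem pow_char_eq_qExpand (y : LaurentSeries k) :
    haveI : NeZero ℓ := ⟨(Fact.out : ℓ.Prime).ne_zero⟩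
    y ^ ℓ = qExpand k ℓ (coeffMap (frobenius k ℓ) y) := by
  haveI : NeZero ℓ := ⟨(Fact.out : ℓ.Prime).ne_zero⟩
  conv_lhs => rw [← LaurentSeries.single_order_mul_powerSeriesPart y]
  conv_rhs => rw [← LaurentSeries.single_order_mul_powerSeriesPart y]
  rw [mul_pow, map_mul, map_mul, ← ofPowerSeries_pow_char ℓ y.powerSeriesPart,
    HahnSeries.single_pow, one_pow, coeffMap_single, map_one (frobenius k ℓ), qExpand_single,
    nsmul_eq_mul]

end Frobenius

end FLTAgent.Kronecker
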