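import Fermat.Agent.Kronecker.Compatibility
import Fermat.Agent.Kronecker.Specialization
import Fermat.Agent.Reduction.GaussField

/-!
# The kernel of reduction is stable under the Hecke operators

`reductionModL_heckeOperatorBar_eq_zero`: for a prime `ℓ ∤ N`, every Hecke operator maps the
kernel of reduction modulo `ℓ` on `J₀(N)` to itself.  For `T_ℓ` this follows from the congruence
relation, for the other primes from the compatibility of reduction with pullback and pushforward
along the two degeneracy maps `alphaC`, `betaC`.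
-/

set_option autoImplicit false
set_option linter.style.haveILetI false

noncomputable section

open ModularCurve AlgebraicCurve

namespace FLTAgent.Kronecker

section Maps

variable (k : Type*) [Field k] (N q : ℕ) [NeZero N] [NeZero q]

/-- The inclusion of level `N` into level `N q` over `k`. -/
def alphaC : modularFunctionFieldFullC k N →ₐ[k] modularFunctionFieldFullC k (N * q) :=
  IntermediateField.inclusion (full_degeneracyC_le k (dvd_mul_right N q))

/-- `y ↦ y (x^q)` from level `N` into level `N q` over `k`. -/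
def betaC : modularFunctionFieldFullC k N →ₐ[k] modularFunctionFieldFullC k (N * q) :=
  (IntermediateField.inclusion (full_degeneracyC_map_le (N := N) k q)).comp
    ((modularFunctionFieldFullC k N).equivMap (qExpandAlgHomC k q)).toAlgHom

theorem coe_alphaC (x : modularFunctionFieldFullC k N) :
    (alphaC k N q x : LaurentSeries k) = (x : LaurentSeries k) :=
  IntermediateField.coe_inclusion _ x

theorem coe_betaC (x : modularFunctionFieldFullC k N) :
    (betaC k N q x : LaurentSeries k) = qExpand k q (x : LaurentSeries k) :=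
  rfl

end Maps

section Generic

variable {L : Type*} [Field L] [Algebra ℚ L] {A : ValuationSubring L}
variable {k : Type*} [Field k] {π : A →+* k} {N q : ℕ} [NeZero N] [NeZero q]

theorem isReductionOf_alpha :
    IsReductionOf (heckeAlphaBar L N q) (alphaC k N q) A π :=
  ⟨id, fun _ _ => coe_heckeAlphaBar N q _, fun _ _ => coe_alphaC k N q _⟩

theorem isReductionOf_beta :
    IsReductionOf (heckeBetaBar L N q) (betaC k N q) A π :=
  ⟨qExpand A q, fun y hy => by
      rw [coe_heckeBetaBar, ModularCurve.coeffMap_qExpand],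
    fun y hy => by
      rw [coe_betaC, ModularCurve.coeffMap_qExpand]⟩

theorem coeffEmb_jq_eq_coeffMap :
    coeffMap A.subtype (jqModC A) = coeffEmb L jq := by
  rw [coeffMap_jqModC, FLTAgent.ModularCosets.coeffEmb_jq_eq]

/-- A reduction of places is not constant. -/
theorem exists_reduction_ne [IsAlgClosed k] [FLTAgent.FF.IsFF k (modularFunctionFieldFullC k N)]
    [HasPrincipalDivisors L (laurentBaseChange L (modularFunctionFieldFull N))]
    {r : Place L (laurentBaseChange L (modularFunctionFieldFull N)) →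
      Place k (modularFunctionFieldFullC k N)}
    (hr : IsPlaceReductionAlong A π N r)
    (hdeg : ∀ v : Place L (laurentBaseChange L (modularFunctionFieldFull N)), v.deg = 1)
    (P : Place L (laurentBaseChange L (modularFunctionFieldFull N))) :
    ∃ P', r P' ≠ r P := by
  by_contra hall
  push Not at hall
  have hy : coeffMap A.subtype (jqModC A) ∈ laurentBaseChange L (modularFunctionFieldFull N) := by
    rw [coeffEmb_jq_eq_coeffMap]; exact coeffEmb_jq_mem L N
  have hyk : coeffMap π (jqModC A) ∈ modularFunctionFieldFullC k N := by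
    rw [coeffMap_jqModC]; exact jqModC_mem_full k N
  have hne : coeffMap π (jqModC A) ≠ 0 := by
    rw [coeffMap_jqModC]; exact jqModC_ne_zero_of_nontrivial k
  have hne0 : (⟨coeffMap A.subtype (jqModC A), hy⟩ :
      laurentBaseChange L (modularFunctionFieldFull N)) ≠ 0 := fun h =>
    jqModC_ne_zero_of_nontrivial L ((coeffMap_jqModC A.subtype).symm.trans (congrArg Subtype.val h))
  obtain ⟨D, hD, hD0⟩ := HasPrincipalDivisors.exists_divisor (K := L) _ hne0
  have hmap : ∀ E : Divisor L (laurentBaseChange L (modularFunctionFieldFull N)),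
      Finsupp.mapDomain r E = Finsupp.single (r P) (Divisor.degree E) := by
    intro E
    induction E using Finsupp.induction with
    | zero => simp
    | single_add v n E _ _ ih =>
      rw [Finsupp.mapDomain_add, ih, Finsupp.mapDomain_single, hall v, map_add,
        Divisor.degree_single, hdeg, Nat.cast_one, mul_one, ← Finsupp.single_add]
  have hrev : Transcendental k (⟨coeffMap π (jqModC A), hyk⟩ : modularFunctionFieldFullC k N) := by
    have h := FLTAgent.Reduction.transcendental_jF N k
    rwa [show (⟨coeffMap π (jqModC A), hyk⟩ : modularFunctionFieldFullC k N) =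
      FLTAgent.Reduction.jF N k from Subtype.ext (coeffMap_jqModC π)]
  obtain ⟨Q, hQ⟩ := FLTAgent.FF.exists_pole hrev
  rw [← hr.2 _ hy hyk hne D hD Q, hmap, hD0, Finsupp.single_zero, Finsupp.zero_apply] at hQ
  exact lt_irrefl _ hQ

end Generic

/-! ### The theorem -/

set_option maxHeartbeats 1600000
set_option synthInstance.maxHeartbeats 400000

variable {N : ℕ} [NeZero N] {ℓ : ℕ} {A : ValuationSubring (AlgebraicClosure ℚ)}

local notation "Qb" => AlgebraicClosure ℚ

theorem finrankAlong_alpha_eq [Fact ℓ.Prime] (hA : A.LiesOverPrime ℓ) (hℓN : ¬ ℓ ∣ N) {q : ℕ}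
    [NeZero q] [NeZero (N * q)] (hℓM : ¬ ℓ ∣ N * q) :
    finrankAlong Qb (heckeAlphaBar Qb N q) =
      finrankAlong (IsLocalRing.ResidueField A) (alphaC (IsLocalRing.ResidueField A) N q) := by
  have h1 := finrankAlong_mul_finrank (heckeAlphaBar Qb N q)
    ⟨coeffEmb Qb jq, coeffEmb_jq_mem Qb N⟩
  rw [show heckeAlphaBar Qb N q ⟨coeffEmb Qb jq, coeffEmb_jq_mem Qb N⟩ =
      ⟨coeffEmb Qb jq, coeffEmb_jq_mem Qb (N * q)⟩ from Subtype.ext (coe_heckeAlphaBar N q _),
    FLTAgent.ModularCosets.finrank_bar_over_j (N * q) _ rfl,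
    FLTAgent.ModularCosets.finrank_bar_over_j N _ rfl] at h1
  have h2 := finrankAlong_mul_finrank (alphaC (IsLocalRing.ResidueField A) N q)
    (FLTAgent.Reduction.jF N (IsLocalRing.ResidueField A))
  rw [show alphaC (IsLocalRing.ResidueField A) N q
        (FLTAgent.Reduction.jF N (IsLocalRing.ResidueField A)) =
      FLTAgent.Reduction.jF (N * q) (IsLocalRing.ResidueField A) from
        Subtype.ext (coe_alphaC _ N q _),
    FLTAgent.Reduction.finrank_fullC_residue (N * q) A hA hℓM,
    FLTAgent.Reduction.finrank_fullC_residue N A hA hℓN] at h2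
  exact Nat.eq_of_mul_eq_mul_left (FLTAgent.ModularCosets.dedekindPsi_pos N) (h1.trans h2.symm)

/-- The case `q ≠ ℓ`, from compatibility of reduction with the degeneracy maps. -/
theorem reductionModL_heckeOperatorBar_eq_zero_of_ne [Fact ℓ.Prime] (hℓN : ¬ ℓ ∣ N)
    (hA : A.LiesOverPrime ℓ) (q : Nat.Primes) (hq : ¬ ℓ ∣ (q : ℕ)) (z : JZero N)
    (hz : reductionModL A N z = 0) : reductionModL A N (heckeOperatorBar N q z) = 0 := by
  haveI : NeZero (q : ℕ) := ⟨q.2.ne_zero⟩
  haveI : NeZero (N * (q : ℕ)) := ⟨mul_ne_zero (NeZero.ne N) (NeZero.ne _)⟩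
  have hℓ : ℓ.Prime := Fact.out
  have hℓM : ¬ ℓ ∣ N * (q : ℕ) := fun h => (hℓ.dvd_mul.mp h).elim hℓN hq
  haveI := GalCommon.isAlgClosed_residueField A hℓ hA
  haveI := FLTAgent.Reduction.isFF_fullC_residue N A hA hℓN
  haveI := FLTAgent.Reduction.isFF_fullC_residue (N * q) A hA hℓM
  haveI := isFF_bar N
  haveI := isFF_bar (N * q)
  obtain ⟨hα, hβ, hP, hfin, hFI, hN⟩ := heckeInputs_bar N (q : ℕ)
  have hM := reductionInputs (N * q) hℓ hℓM hA
  have hNi := reductionInputs N hℓ hℓN hA
  obtain ⟨rM, hrM, -⟩ := id hM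
  have hrN := hNi.choose_spec.1
  have hgen := hNi.choose_spec.2
  set k := IsLocalRing.ResidueField A
  have hαk := FLTAgent.FF.isIntegral_alongFF (alphaC k N q)
  have hβk := FLTAgent.FF.isIntegral_alongFF (betaC k N q)
  have hsepα : SeparableAlong k (alphaC k N q) := by
    refine separableAlong_of_adjoin _ (FLTAgent.Reduction.jF N k) ?_
    rw [show alphaC k N q (FLTAgent.Reduction.jF N k) = FLTAgent.Reduction.jF (N * q) k from
      Subtype.ext (coe_alphaC _ N q _)]
    exact FLTAgent.Reduction.isSeparable_fullC_residue (N * q) A hA hℓM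
  have hsep0 : SeparableAlong Qb (heckeAlphaBar Qb N q) := FLTAgent.FF.separableAlong _
  have hres := restrictAlong_compat (heckeAlphaBar Qb N q) hα (alphaC k N q) hαk
    isReductionOf_alpha hrN hrM hgen (deg_eq_one_bar N) (deg_eq_one_bar (N * q))
    FLTAgent.FF.deg_eq_one (hasRiemannBound_bar N)
    (FLTAgent.FF.fundamentalIdentityAlong _ hα hsep0)
    (FLTAgent.FF.fundamentalIdentityAlong _ hαk hsepα)
    (exists_ramificationIndexAlong_le _ hαk) (finrankAlong_alpha_eq hA hℓN hℓM)
    (exists_reduction_ne hrN (deg_eq_one_bar N))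
  obtain ⟨D, rfl⟩ := Pic0.mk_surjective z
  have hprin : Finsupp.mapDomain hNi.choose (D : Divisor Qb (modularFunctionFieldBar N)) ∈
      Divisor.principal (K := k) (F := modularFunctionFieldFullC k N) := by
    rw [reductionModL, reductionAlong_mk hNi] at hz
    exact AddSubgroup.mem_addSubgroupOf.mp ((QuotientAddGroup.eq_zero_iff _).mp hz)
  rw [show heckeOperatorBar N q (Pic0.mk D) = heckeOperatorAlong Qb N q (Pic0.mk D) from rfl,
    heckeOperatorAlong_eq hα hβ hFI hfin hN, heckePic0Bar, Pic0.correspondence_mk, reductionModL,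
    reductionAlong_mk hNi]
  refine (QuotientAddGroup.eq_zero_iff _).mpr (AddSubgroup.mem_addSubgroupOf.mpr ?_)
  show Finsupp.mapDomain hNi.choose (Divisor.correspondence (heckeBetaBar Qb N q)
    (heckeAlphaBar Qb N q) hβ hα (D : Divisor Qb (modularFunctionFieldBar N))) ∈ _
  rw [Divisor.correspondence_apply,
    mapDomain_pushforwardAlong_compat _ hα _ hαk hres (deg_eq_one_bar N) (deg_eq_one_bar (N * q))
      FLTAgent.FF.deg_eq_one FLTAgent.FF.deg_eq_one,
    mapDomain_pullbackAlong_compat _ hβ (betaC k N q) hβk isReductionOf_beta hrN hrM hgen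
      (deg_eq_one_bar N) (deg_eq_one_bar (N * q)) (hasRiemannBound_bar N) hFI
      (exists_ramificationIndexAlong_le _ hβk) D.2]
  exact Divisor.isPrincipal_pushforwardAlong _ hαk (FLTAgent.FF.finiteAlong _)
    (FLTAgent.FF.normFormulaAlong _ (FLTAgent.FF.finiteAlong _) hsepα)
    (Divisor.isPrincipal_pullbackAlong _ hβk hprin)

/-- The kernel of reduction at `ℓ ∤ N` is stable under all Hecke operators. -/
theorem reductionModL_heckeOperatorBar_eq_zero (N : ℕ) [NeZero N] {ℓ : ℕ} [Fact ℓ.Prime]
    (hℓN : ¬ ℓ ∣ N) (A : ValuationSubring (AlgebraicClosure ℚ)) (hA : A.LiesOverPrime ℓ)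
    (q : Nat.Primes) (z : JZero N) (hz : reductionModL A N z = 0) :
    reductionModL A N (heckeOperatorBar N q z) = 0 := by
  have hℓ : ℓ.Prime := Fact.out
  obtain ⟨q, hq⟩ := q
  rcases eq_or_ne q ℓ with rfl | hne
  · haveI := GalCommon.charP_residueField hℓ hA
    haveI : ExpChar (IsLocalRing.ResidueField A) q := .prime hℓ
    haveI := GalCommon.isAlgClosed_residueField A hℓ hA
    have h := reductionModL_heckeOperatorBar hℓN (reductionInputs N hℓ hℓN hA) z
    have hz0 : ∀ g : SemilinearAut (IsLocalRing.ResidueField A)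
        (modularFunctionFieldFullC (IsLocalRing.ResidueField A) N),
        g • (0 : JZeroC (IsLocalRing.ResidueField A) N) = 0 := fun g =>
      map_zero (DistribSMul.toAddMonoidHom (JZeroC (IsLocalRing.ResidueField A) N) g)
    rw [hz, hz0, hz0, nsmul_zero, add_zero] at h
    exact h
  · exact reductionModL_heckeOperatorBar_eq_zero_of_ne hℓN hA ⟨q, hq⟩
      (fun h => hne ((Nat.prime_dvd_prime_iff_eq hℓ hq).mp h).symm) z hz

end FLTAgent.Kronecker
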