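import Fermat.Agent.Kronecker.Congruence
import Fermat.Agent.FF.PlacesMain

/-!
# Effective divisors and bounds on ramification

Elementary facts on effective divisors (`apply_le_degree`, `eq_zero_of_nonneg_of_degree_eq_zero`),
a uniform bound on the ramification indices of an integral map of function fields
(`exists_ramificationIndexAlong_le`: they are at most the degree of the polar divisor of the image
of a nonconstant function), and two facts on separability and degree along such a map.
-/

set_option autoImplicit false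
set_option linter.style.haveILetI false

noncomputable section

open AlgebraicCurve IntermediateField

namespace FLTAgent.Kronecker

section Effective

variable {K F : Type*} [Field K] [Field F] [Algebra K F] {ι : Type*}

theorem apply_le_degree (hdeg : ∀ v : Place K F, v.deg = 1) {E : Divisor K F}
    (hE : ∀ v, 0 ≤ E v) (v : Place K F) : E v ≤ Divisor.degree E := by
  classical
  rw [Divisor.degree, Finsupp.liftAddHom_apply, Finsupp.sum]
  simp only [AddMonoidHom.mulRight_apply, hdeg, Nat.cast_one, mul_one]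
  by_cases hv : v ∈ E.support
  · exact Finset.single_le_sum (fun w _ => hE w) hv
  · rw [Finsupp.notMem_support_iff.mp hv]
    exact Finset.sum_nonneg fun w _ => hE w

theorem eq_zero_of_nonneg_of_degree_eq_zero (hdeg : ∀ v : Place K F, v.deg = 1) {E : Divisor K F}
    (hE : ∀ v, 0 ≤ E v) (h : Divisor.degree E = 0) : E = 0 :=
  Finsupp.ext fun v => le_antisymm ((apply_le_degree hdeg hE v).trans_eq h) (hE v)

theorem le_mapDomain_apply {κ : Type*} (r : κ → ι) (D : κ →₀ ℤ) (hD : ∀ v, 0 ≤ D v) (w : κ) :
    D w ≤ Finsupp.mapDomain r D (r w) := by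
  classical
  rw [Finsupp.mapDomain, Finsupp.sum_apply, Finsupp.sum]
  by_cases hw : w ∈ D.support
  · refine le_trans (le_of_eq ?_) (Finset.single_le_sum (fun v _ => ?_) hw)
    · rw [Finsupp.single_eq_same]
    · rw [Finsupp.single_apply]; split_ifs
      · exact hD v
      · exact le_rfl
  · rw [Finsupp.notMem_support_iff.mp hw]
    refine Finset.sum_nonneg fun v _ => ?_
    rw [Finsupp.single_apply]; split_ifs
    · exact hD v
    · exact le_rfl

theorem mapDomain_nonneg {κ : Type*} (r : κ → ι) (D : κ →₀ ℤ) (hD : ∀ v, 0 ≤ D v) (i : ι) :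
    0 ≤ Finsupp.mapDomain r D i := by
  classical
  rw [Finsupp.mapDomain, Finsupp.sum_apply, Finsupp.sum]
  refine Finset.sum_nonneg fun v _ => ?_
  rw [Finsupp.single_apply]; split_ifs
  · exact hD v
  · exact le_rfl

end Effective

section Ramification

variable {K F F' : Type*} [Field K] [Field F] [Field F'] [Algebra K F] [Algebra K F']
variable [IsAlgClosed K] [FLTAgent.FF.IsFF K F] [FLTAgent.FF.IsFF K F'] (φ : F →ₐ[K] F')

theorem degree_zeroDivisor_eq_degree_poleDivisor (f : F) :
    Divisor.degree (FLTAgent.FF.zeroDivisor f : Divisor K F) =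
      Divisor.degree (FLTAgent.FF.poleDivisor f : Divisor K F) := by
  have h : (FLTAgent.FF.zeroDivisor f : Divisor K F) =
      FLTAgent.FF.divisorOf f + FLTAgent.FF.poleDivisor f := Finsupp.ext fun v => by
    rw [Finsupp.add_apply, FLTAgent.FF.zeroDivisor_apply, FLTAgent.FF.poleDivisor_apply,
      FLTAgent.FF.divisorOf_apply]
    omega
  rw [h, map_add, FLTAgent.FF.degree_divisorOf, zero_add]

theorem poleDivisor_sub_algebraMap {f : F} (hf : f ∉ (algebraMap K F).range) (c : K) :
    (FLTAgent.FF.poleDivisor (f - algebraMap K F c) : Divisor K F) =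
      FLTAgent.FF.poleDivisor f := by
  have key : ∀ (g : F), g ∉ (algebraMap K F).range → ∀ (d : K) (v : Place K F), v.ord g < 0 →
      v.ord (g + algebraMap K F d) = v.ord g := fun g hg d v hv => by
    refine (FLTAgent.FF.ord_add_of_lt v (fun h0 : g = 0 => hg ⟨0, by rw [map_zero, h0]⟩) (Or.inr ?_)).2
    rwa [FLTAgent.FF.ord_algebraMap]
  have hf' : f - algebraMap K F c ∉ (algebraMap K F).range := fun ⟨d, hd⟩ =>
    hf ⟨d + c, by rw [map_add, hd]; ring⟩
  refine Finsupp.ext fun v => ?_
  rw [FLTAgent.FF.poleDivisor_apply, FLTAgent.FF.poleDivisor_apply]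
  rcases lt_or_ge (v.ord f) 0 with h | h
  · rw [sub_eq_add_neg, ← map_neg, key f hf (-c) v h]
  · rcases lt_or_ge (v.ord (f - algebraMap K F c)) 0 with h' | h'
    · have h2 := key _ hf' c v h'
      rw [sub_add_cancel] at h2
      omega
    · omega

/-- Ramification indices are bounded. -/
theorem exists_ramificationIndexAlong_le (hφ : φ.toRingHom.IsIntegral) :
    ∃ B : ℕ, ∀ W : Place K F', W.ramificationIndexAlong φ ≤ B := by
  obtain ⟨x, hx, -, -⟩ := FLTAgent.FF.IsFF.exists_sep (K := K) (F := F)
  have hxr : x ∉ (algebraMap K F).range := fun ⟨c, hc⟩ => hx (hc ▸ isAlgebraic_algebraMap c)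
  have hyr : φ x ∉ (algebraMap K F').range := fun ⟨c, hc⟩ =>
    hxr ⟨c, φ.toRingHom.injective ((φ.commutes c).trans hc)⟩
  refine ⟨(Divisor.degree (FLTAgent.FF.poleDivisor (φ x) : Divisor K F')).toNat, fun W => ?_⟩
  have hnn : ∀ (f : F') (w : Place K F'), 0 ≤ (FLTAgent.FF.poleDivisor f : Divisor K F') w :=
    fun f w => by rw [FLTAgent.FF.poleDivisor_apply]; exact le_max_left _ _
  have hle : (W.ramificationIndexAlong φ : ℤ) ≤
      Divisor.degree (FLTAgent.FF.poleDivisor (φ x) : Divisor K F') := by
    set v := W.restrictAlong φ hφ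
    have he : (0 : ℤ) ≤ W.ramificationIndexAlong φ := Int.natCast_nonneg _
    have hx0 : x ≠ 0 := fun h => hxr ⟨0, by rw [map_zero, h]⟩
    rcases lt_or_ge (v.ord x) 0 with h | h
    · refine le_trans ?_ (apply_le_degree FLTAgent.FF.deg_eq_one (hnn _) W)
      rw [FLTAgent.FF.poleDivisor_apply, Place.ord_restrictAlong φ hφ W x]
      refine le_trans ?_ (le_max_right _ _)
      have h1 : v.ord x ≤ -1 := by omega
      nlinarith
    · obtain ⟨c, hc⟩ := FLTAgent.FF.exists_residue v
        ((FLTAgent.FF.mem_iff_ord_nonneg v hx0).mpr h)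
      rcases hc with hc | hc
      · exact absurd ⟨c, hc.symm⟩ hxr
      · have h3 : (W.ramificationIndexAlong φ : ℤ) ≤
            (FLTAgent.FF.zeroDivisor (φ (x - algebraMap K F c)) : Divisor K F') W := by
          rw [FLTAgent.FF.zeroDivisor_apply, Place.ord_restrictAlong φ hφ W]
          refine le_trans ?_ (le_max_right _ _)
          have h1 : 1 ≤ v.ord (x - algebraMap K F c) := hc
          nlinarith
        refine h3.trans ((apply_le_degree FLTAgent.FF.deg_eq_one
          (fun w => by rw [FLTAgent.FF.zeroDivisor_apply]; exact le_max_left _ _) W).trans_eq ?_)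
        rw [degree_zeroDivisor_eq_degree_poleDivisor, map_sub, AlgHom.commutes,
          poleDivisor_sub_algebraMap hyr]
  omega

end Ramification

section Separable

variable {K F F' : Type*} [Field K] [Field F] [Field F'] [Algebra K F] [Algebra K F']

theorem separableAlong_of_adjoin (φ : F →ₐ[K] F') (x : F)
    (h : Algebra.IsSeparable K⟮φ x⟯ F') : SeparableAlong K φ := by
  letI := algebraAlong φ
  haveI := isScalarTower_along φ
  have hadj : (K⟮x⟯).map φ = K⟮φ x⟯ := by rw [IntermediateField.adjoin_map, Set.image_singleton]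
  let e : K⟮x⟯ ≃ₐ[K] K⟮φ x⟯ :=
    ((K⟮x⟯).equivMap φ).trans (IntermediateField.equivOfEq hadj)
  refine ⟨fun y => ?_⟩
  let i : K⟮φ x⟯ →+* F :=
    (algebraMap K⟮x⟯ F).comp (e.symm : K⟮φ x⟯ →+* K⟮x⟯)
  have hcomp : (algebraMap F F').comp i = algebraMap K⟮φ x⟯ F' := RingHom.ext fun a => by
    conv_rhs => rw [← e.apply_symm_apply a]
    rfl
  refine Polynomial.Separable.of_dvd (g := minpoly F y)
    (f := (minpoly K⟮φ x⟯ y).map i)
    (Polynomial.Separable.map (show (minpoly K⟮φ x⟯ y).Separable from h.isSeparable' y))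
    (minpoly.dvd _ _ ?_)
  rw [Polynomial.aeval_def, Polynomial.eval₂_map, hcomp]
  exact minpoly.aeval _ _

theorem finrankAlong_mul_finrank (φ : F →ₐ[K] F') (x : F) :
    Module.finrank K⟮x⟯ F * finrankAlong K φ = Module.finrank K⟮φ x⟯ F' := by
  letI := algebraAlong φ
  haveI := isScalarTower_along φ
  have hadj : (K⟮x⟯).map φ = K⟮φ x⟯ := by rw [IntermediateField.adjoin_map, Set.image_singleton]
  let e : K⟮x⟯ ≃+* K⟮φ x⟯ :=
    (((K⟮x⟯).equivMap φ).trans (IntermediateField.equivOfEq hadj)).toRingEquiv
  show Module.finrank K⟮x⟯ F * Module.finrank F F' = _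
  rw [Module.finrank_mul_finrank]
  refine Algebra.finrank_eq_of_equiv_equiv e (RingEquiv.refl F') ?_
  ext a
  rfl

end Separable

end FLTAgent.Kronecker
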