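import Fermat.Agent.Kronecker.Congruence
import Fermat.Agent.Kronecker.Inputs
import Fermat.Prelude.Def_ModularCurve_HeckeModule

/-!
# Hecke operators commute with Galois

Semilinear automorphisms intertwining a map of function fields commute with pullback, pushforward
and the correspondences of the map (`correspondence_smul`).  Applied to the two degeneracy maps
this gives `heckeOperatorBar_galois_smul` and `smulCommClass_heckeModuleBar`: the Hecke operators
on `J₀(N)` commute with the Galois action.
-/

set_option autoImplicit false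
set_option linter.style.haveILetI false

noncomputable section

open ModularCurve AlgebraicCurve
open scoped Pointwise

namespace FLTAgent.Kronecker

/-! ### Semilinear naturality of correspondences -/

section Semilinear

variable {K F F' : Type*} [Field K] [Field F] [Field F'] [Algebra K F] [Algebra K F']
variable (φ : F →ₐ[K] F') (hφ : φ.toRingHom.IsIntegral)
variable {g : SemilinearAut K F} {g' : SemilinearAut K F'}

theorem mem_restrictAlong_iff (W : Place K F') (x : F) :
    x ∈ (W.restrictAlong φ hφ).toValuationSubring ↔ φ x ∈ W.toValuationSubring := by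
  letI := algebraAlong φ
  haveI := isScalarTower_along φ
  haveI := isIntegral_along φ hφ
  exact ValuationSubring.mem_comap

theorem restrictAlong_smul (hint : SemilinearAut.IntertwinesAlong φ.toRingHom g g')
    (W : Place K F') : (g' • W).restrictAlong φ hφ = g • W.restrictAlong φ hφ := by
  apply Place.ext
  ext x
  rw [mem_restrictAlong_iff, SemilinearAut.smul_toValuationSubring,
    SemilinearAut.smul_toValuationSubring,
    ValuationSubring.mem_pointwise_smul_iff_inv_smul_mem,
    ValuationSubring.mem_pointwise_smul_iff_inv_smul_mem, mem_restrictAlong_iff]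
  exact Iff.of_eq (congrArg (· ∈ W.toValuationSubring) (hint.inv x))

include hφ in
theorem ramificationIndexAlong_smul (hint : SemilinearAut.IntertwinesAlong φ.toRingHom g g')
    (W : Place K F') :
    (g' • W).ramificationIndexAlong φ = W.ramificationIndexAlong φ := by
  obtain ⟨t, ht⟩ := IsDiscreteValuationRing.exists_irreducible
    (W.restrictAlong φ hφ).toValuationSubring
  have h1 := Place.ord_restrictAlong φ hφ W (t : F)
  have h2 := Place.ord_restrictAlong φ hφ (g' • W) (g • (t : F))
  rw [restrictAlong_smul φ hφ hint, SemilinearAut.ord_smul,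
    show φ (g • (t : F)) = g' • φ (t : F) from (hint _).symm, SemilinearAut.ord_smul, h1,
    (W.restrictAlong φ hφ).ord_coe_irreducible ht, mul_one, mul_one] at h2
  exact_mod_cast h2.symm

variable [HasPrincipalDivisors K F']

theorem pullbackAlong_smul (hint : SemilinearAut.IntertwinesAlong φ.toRingHom g g')
    (D : Divisor K F) :
    Divisor.pullbackAlong φ hφ (g • D) = g' • Divisor.pullbackAlong φ hφ D := by
  ext w
  rw [Divisor.pullbackAlong_apply, SemilinearAut.divisor_smul_apply,
    SemilinearAut.divisor_smul_apply, Divisor.pullbackAlong_apply,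
    restrictAlong_smul φ hφ hint.inv, ramificationIndexAlong_smul φ hφ hint.inv]

omit [HasPrincipalDivisors K F'] in
theorem pushforwardAlong_smul (hint : SemilinearAut.IntertwinesAlong φ.toRingHom g g')
    (hdeg : ∀ v : Place K F, v.deg = 1) (hdeg' : ∀ w : Place K F', w.deg = 1) (D : Divisor K F') :
    Divisor.pushforwardAlong φ hφ (g' • D) = g • Divisor.pushforwardAlong φ hφ D := by
  have hone : ∀ W : Place K F', W.inertiaDegAlong φ hφ = 1 := fun W => by
    have h := deg_restrictAlong_mul_inertiaDegAlong φ hφ W
    rwa [hdeg, hdeg', one_mul] at h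
  induction D using Finsupp.induction with
  | zero => rw [smul_zero, map_zero, smul_zero]
  | single_add W n D _ _ ih =>
      rw [smul_add, map_add, map_add, smul_add, ih, SemilinearAut.smul_single,
        Divisor.pushforwardAlong_single, Divisor.pushforwardAlong_single,
        SemilinearAut.smul_single, hone, hone, restrictAlong_smul φ hφ hint]

theorem correspondence_smul (ψ : F →ₐ[K] F') (hψ : ψ.toRingHom.IsIntegral)
    (hintφ : SemilinearAut.IntertwinesAlong φ.toRingHom g g')
    (hintψ : SemilinearAut.IntertwinesAlong ψ.toRingHom g g')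
    (hdeg : ∀ v : Place K F, v.deg = 1) (hdeg' : ∀ w : Place K F', w.deg = 1) (D : Divisor K F) :
    Divisor.correspondence φ ψ hφ hψ (g • D) = g • Divisor.correspondence φ ψ hφ hψ D := by
  rw [Divisor.correspondence_apply, Divisor.correspondence_apply, pullbackAlong_smul φ hφ hintφ,
    pushforwardAlong_smul ψ hψ hintψ hdeg hdeg']

end Semilinear

/-! ### Application to `J₀(N)` -/

set_option maxHeartbeats 800000

variable (L : Type*) [Field L] [Algebra ℚ L] (N ℓ : ℕ) [NeZero N] [NeZero ℓ]

theorem intertwinesAlong_heckeAlphaBar (σ : L ≃ₐ[ℚ] L) :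
    SemilinearAut.IntertwinesAlong (heckeAlphaBar L N ℓ).toRingHom
      (arithmeticGalois (modularFunctionFieldFull N) σ)
      (arithmeticGalois (modularFunctionFieldFull (N * ℓ)) σ) := fun x => by
  apply Subtype.ext
  rw [coe_arithmeticGalois_smul, AlgHom.toRingHom_eq_coe, RingHom.coe_coe, coe_heckeAlphaBar,
    coe_heckeAlphaBar, coe_arithmeticGalois_smul]

theorem intertwinesAlong_heckeBetaBar (σ : L ≃ₐ[ℚ] L) :
    SemilinearAut.IntertwinesAlong (heckeBetaBar L N ℓ).toRingHom
      (arithmeticGalois (modularFunctionFieldFull N) σ)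
      (arithmeticGalois (modularFunctionFieldFull (N * ℓ)) σ) := fun x => by
  apply Subtype.ext
  rw [coe_arithmeticGalois_smul, AlgHom.toRingHom_eq_coe, RingHom.coe_coe, coe_heckeBetaBar,
    coe_heckeBetaBar, coe_arithmeticGalois_smul, ModularCurve.coeffMap_qExpand]

variable {L N ℓ}

theorem heckePic0Bar_galois_smul
    [HasPrincipalDivisors L (laurentBaseChange L (modularFunctionFieldFull (N * ℓ)))]
    (hα : HeckeAlphaBarIntegral L N ℓ) (hβ : HeckeBetaBarIntegral L N ℓ)
    (hFI : FundamentalIdentityAlong L (heckeBetaBar L N ℓ) hβ)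
    (hfin : FiniteAlong L (heckeAlphaBar L N ℓ))
    (hN : NormFormulaAlong L (heckeAlphaBar L N ℓ) hfin)
    (hdeg : ∀ v : Place L (laurentBaseChange L (modularFunctionFieldFull N)), v.deg = 1)
    (hdeg' : ∀ w : Place L (laurentBaseChange L (modularFunctionFieldFull (N * ℓ))), w.deg = 1)
    (σ : L ≃ₐ[ℚ] L) (x : Pic0 L (laurentBaseChange L (modularFunctionFieldFull N))) :
    heckePic0Bar hα hβ hFI hfin hN (σ • x) = σ • heckePic0Bar hα hβ hFI hfin hN x := by
  obtain ⟨D, rfl⟩ := Pic0.mk_surjective x
  rw [galois_smul_pic0_def, galois_smul_pic0_def, SemilinearAut.pic0_smul_mk, heckePic0Bar,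
    Pic0.correspondence_mk, Pic0.correspondence_mk, SemilinearAut.pic0_smul_mk]
  exact congrArg Pic0.mk (Subtype.ext (correspondence_smul _ hβ _ hα
    (intertwinesAlong_heckeBetaBar L N ℓ σ) (intertwinesAlong_heckeAlphaBar L N ℓ σ) hdeg hdeg' _))

/-- The Hecke operators on `J₀(N)` commute with Galois. -/
theorem heckeOperatorBar_galois_smul (N : ℕ) [NeZero N] (q : Nat.Primes)
    (σ : AlgebraicClosure ℚ ≃ₐ[ℚ] AlgebraicClosure ℚ) (x : JZero N) :
    heckeOperatorBar N q (σ • x) = σ • heckeOperatorBar N q x := by
  haveI : NeZero (q : ℕ) := ⟨q.2.ne_zero⟩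
  haveI : NeZero (N * (q : ℕ)) := ⟨mul_ne_zero (NeZero.ne N) (NeZero.ne _)⟩
  obtain ⟨hα, hβ, hP, hfin, hFI, hN⟩ := heckeInputs_bar N (q : ℕ)
  haveI := hP
  rw [show heckeOperatorBar N q (σ • x) = heckeOperatorAlong (AlgebraicClosure ℚ) N q (σ • x)
      from rfl,
    show heckeOperatorBar N q x = heckeOperatorAlong (AlgebraicClosure ℚ) N q x from rfl,
    heckeOperatorAlong_eq hα hβ hFI hfin hN]
  exact heckePic0Bar_galois_smul hα hβ hFI hfin hN (deg_eq_one_bar N) (deg_eq_one_bar (N * q)) σ x

/-- The Hecke module structure on `J₀(N)` commutes with the Galois action. -/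
theorem smulCommClass_heckeModuleBar (N : ℕ) [NeZero N] :
    letI := heckeModuleBar N
    SMulCommClass (AlgebraicClosure ℚ ≃ₐ[ℚ] AlgebraicClosure ℚ) HeckeAlg (JZero N) := by
  letI := heckeModuleBar N
  refine ⟨fun σ t x => ?_⟩
  have hadd : ∀ a b : JZero N, σ • (a + b) = σ • a + σ • b :=
    map_add (DistribSMul.toAddMonoidHom (JZero N) σ)
  induction t using MvPolynomial.induction_on generalizing x with
  | C a =>
      rw [heckeModuleBar_C_smul, heckeModuleBar_C_smul]
      exact map_zsmul (DistribSMul.toAddMonoidHom (JZero N) σ) a x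
  | add s t hs ht => rw [add_smul, add_smul, hadd, hs, ht]
  | mul_X s q hs =>
      rw [mul_smul, mul_smul, hs]
      refine congrArg (s • ·) ?_
      by_cases h : HeckeOperatorsCommuteBar N
      · rw [show (MvPolynomial.X q : HeckeAlg) • x = heckeOperatorBar N q x from
            heckeModuleBar_heckeGen_smul h q x,
          show (MvPolynomial.X q : HeckeAlg) • (σ • x) = heckeOperatorBar N q (σ • x) from
            heckeModuleBar_heckeGen_smul h q (σ • x), heckeOperatorBar_galois_smul]
      · rw [show (MvPolynomial.X q : HeckeAlg) • x = 0 from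
            heckeModuleBar_heckeGen_smul_of_not h q x,
          show (MvPolynomial.X q : HeckeAlg) • (σ • x) = 0 from
            heckeModuleBar_heckeGen_smul_of_not h q (σ • x)]
        exact map_zero (DistribSMul.toAddMonoidHom (JZero N) σ)

end FLTAgent.Kronecker
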