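import Fermat.Agent.Kronecker.CoeffGalois
import Fermat.Prelude.Def_ModularCurve_HeckeOperatorTotal
import Fermat.Prelude.Def_ModularCurve_ReductionModL

/-!
# The norm from level `N ℓ` to level `N`

`qExpand_normAlpha_heckeBetaBar`: the norm of `y(q^ℓ)` from level `N ℓ` down to level `N`, read
after `q ↦ q^ℓ`, is `y(q^(ℓ^2)) · ∏_b y(ζ^b q)`.  The `ℓ + 1` embeddings are the inclusion and the
twists of the Atkin–Lehner swap (`HasSwap`); they are distinguished by a coefficient of the image
of `j`.
-/

set_option autoImplicit false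
set_option linter.style.haveILetI false

noncomputable section

open ModularCurve AlgebraicCurve

namespace FLTAgent.Kronecker

/-- The norm is the product of a complete family of distinct embeddings. -/
theorem norm_eq_prod_of_embeddings {F F' E ι : Type*} [Field F] [Field F'] [Field E]
    [IsAlgClosed E] [Algebra F F'] [Module.Finite F F'] [CharZero F] [Fintype ι]
    (i₀ : F →+* E) (σ : ι → (F' →+* E)) (hσ : ∀ o x, σ o (algebraMap F F' x) = i₀ x)
    (hinj : Function.Injective σ) (hcard : Fintype.card ι = Module.finrank F F') (x : F') :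
    i₀ (Algebra.norm F x) = ∏ o, σ o x := by
  classical
  letI : Algebra F E := i₀.toAlgebra
  let σ' : ι → (F' →ₐ[F] E) := fun o => { σ o with commutes' := hσ o }
  have hinj' : Function.Injective σ' := fun o o' h =>
    hinj (RingHom.ext fun z => DFunLike.congr_fun h z)
  have hbij : Function.Bijective σ' := by
    rw [Fintype.bijective_iff_injective_and_card]
    exact ⟨hinj', by rw [hcard, AlgHom.card]⟩
  have key := Algebra.norm_eq_prod_embeddings F E (L := F') x
  rw [← (Equiv.ofBijective σ' hbij).prod_comp] at key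
  exact key

variable (L : Type*) [Field L] [Algebra ℚ L] (N ℓ : ℕ) [NeZero N] [NeZero ℓ]

/-- The Atkin–Lehner swap of the two embeddings of level `N` in level `N ℓ`, as an embedding
into Laurent series. -/
def HasSwap : Prop :=
  ∃ e : laurentBaseChange L (modularFunctionFieldFull (N * ℓ)) →+* LaurentSeries L,
    ∀ y : laurentBaseChange L (modularFunctionFieldFull N),
      e (heckeAlphaBar L N ℓ y) = qExpand L ℓ (y : LaurentSeries L) ∧
        e (heckeBetaBar L N ℓ y) = (y : LaurentSeries L)

/-- The norm from level `N ℓ` to level `N`. -/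
def normAlpha : laurentBaseChange L (modularFunctionFieldFull (N * ℓ)) →*
    laurentBaseChange L (modularFunctionFieldFull N) :=
  letI := algebraAlong (heckeAlphaBar L N ℓ)
  Algebra.norm _

theorem coeffEmb_jq_mem :
    coeffEmb L jq ∈ laurentBaseChange L (modularFunctionFieldFull N) :=
  coeffEmb_mem_laurentBaseChange L (modularFunctionField_le_full N (jq_mem N))

variable {L N ℓ}

omit [NeZero N] in
theorem coeff_qExpand_twice_jq_neg_one (hℓ : 2 ≤ ℓ) :
    (qExpand L ℓ (qExpand L ℓ (coeffEmb L jq))).coeff (-1) = 0 :=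
  qExpand_coeff_of_not_dvd ℓ _ fun h => by
    have h1 : (ℓ : ℤ) ∣ 1 := by simpa using h
    have := Int.le_of_dvd one_pos h1
    omega

theorem twist_coeffEmb_jq_coeff_neg_one (u : Lˣ) :
    (twist u (coeffEmb L jq)).coeff (-1) = ((u⁻¹ : Lˣ) : L) := by
  rw [twist_coeff, coeffEmb_coeff, coeff_jq_neg_one, map_one, mul_one, zpow_neg, zpow_one]

/-- The norm formula for the Kronecker congruence. -/
theorem qExpand_normAlpha_heckeBetaBar [Fact ℓ.Prime]
    (hfin : FiniteAlong L (heckeAlphaBar L N ℓ))
    (hdeg : finrankAlong L (heckeAlphaBar L N ℓ) = ℓ + 1) (hswap : HasSwap L N ℓ)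
    (ζ : Lˣ) (hζ : IsPrimitiveRoot (ζ : L) ℓ)
    (y : laurentBaseChange L (modularFunctionFieldFull N)) :
    qExpand L ℓ ((normAlpha L N ℓ (heckeBetaBar L N ℓ y) :
        laurentBaseChange L (modularFunctionFieldFull N)) : LaurentSeries L) =
      qExpand L ℓ (qExpand L ℓ (y : LaurentSeries L)) *
        ∏ b : Fin ℓ, twist (ζ ^ (b : ℕ)) (y : LaurentSeries L) := by
  classical
  obtain ⟨e, he⟩ := hswap
  have hu : ∀ b : ℕ, (ζ ^ b) ^ ℓ = 1 := fun b => by
    rw [← pow_mul, mul_comm, pow_mul]
    refine (congrArg (· ^ b) ?_).trans (one_pow b)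
    exact Units.ext (by rw [Units.val_pow_eq_pow_val]; exact hζ.pow_eq_one)
  have hℓ2 : 2 ≤ ℓ := (Fact.out : ℓ.Prime).two_le
  let i : LaurentSeries L →+* AlgebraicClosure (LaurentSeries L) :=
    algebraMap (LaurentSeries L) (AlgebraicClosure (LaurentSeries L))
  let v : laurentBaseChange L (modularFunctionFieldFull (N * ℓ)) →+* LaurentSeries L :=
    SubringClass.subtype _
  let v₀ : laurentBaseChange L (modularFunctionFieldFull N) →+* LaurentSeries L :=
    SubringClass.subtype _
  let σ : Option (Fin ℓ) → (laurentBaseChange L (modularFunctionFieldFull (N * ℓ)) →+*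
      AlgebraicClosure (LaurentSeries L)) :=
    fun o => o.elim (i.comp ((qExpand L ℓ).comp v))
      (fun b => i.comp ((twist (ζ ^ (b : ℕ))).comp e))
  have hinf : ∀ x, σ none (heckeBetaBar L N ℓ x) =
      i (qExpand L ℓ (qExpand L ℓ (x : LaurentSeries L))) := fun x =>
    congrArg (fun z => i (qExpand L ℓ z)) (coe_heckeBetaBar N ℓ x)
  have hb : ∀ (b : Fin ℓ) x, σ (some b) (heckeBetaBar L N ℓ x) =
      i (twist (ζ ^ (b : ℕ)) (x : LaurentSeries L)) := fun b x =>
    congrArg (fun z => i (twist (ζ ^ (b : ℕ)) z)) (he x).2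
  have hσ : ∀ o x, σ o (heckeAlphaBar L N ℓ x) = i.comp ((qExpand L ℓ).comp v₀) x := by
    intro o x
    cases o with
    | none => exact congrArg (fun z => i (qExpand L ℓ z)) (coe_heckeAlphaBar N ℓ x)
    | some b =>
        exact (congrArg (fun z => i (twist (ζ ^ (b : ℕ)) z)) (he x).1).trans
          (congrArg i (twist_qExpand (hu b) _))
  -- the coefficient of `q⁻¹` of the image of `j(q^ℓ)` separates the embeddings
  have hne : ∀ b : Fin ℓ, qExpand L ℓ (qExpand L ℓ (coeffEmb L jq)) ≠
      twist (ζ ^ (b : ℕ)) (coeffEmb L jq) := fun b h => by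
    have h1 := congrArg (fun x : LaurentSeries L => x.coeff (-1)) h
    simp only [coeff_qExpand_twice_jq_neg_one hℓ2, twist_coeffEmb_jq_coeff_neg_one] at h1
    exact Units.ne_zero _ h1.symm
  have hinj : Function.Injective σ := by
    intro o o' h
    have h' := DFunLike.congr_fun h (heckeBetaBar L N ℓ ⟨coeffEmb L jq, coeffEmb_jq_mem L N⟩)
    cases o with
    | none =>
        cases o' with
        | none => rfl
        | some b =>
            rw [hinf, hb] at h'
            exact absurd (i.injective h') (hne b)
    | some b =>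
        cases o' with
        | none =>
            rw [hinf, hb] at h'
            exact absurd (i.injective h').symm (hne b)
        | some b' =>
            rw [hb, hb] at h'
            have h'' := congrArg (fun x : LaurentSeries L => x.coeff (-1)) (i.injective h')
            simp only [twist_coeffEmb_jq_coeff_neg_one] at h''
            have h3 : ζ ^ (b : ℕ) = ζ ^ (b' : ℕ) := inv_inj.mp (Units.ext h'')
            have h4 := congrArg (fun u : Lˣ => (u : L)) h3
            simp only [Units.val_pow_eq_pow_val] at h4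
            exact congrArg some (Fin.ext (hζ.pow_inj b.2 b'.2 h4))
  haveI : CharZero L := algebraRat.charZero L
  haveI : CharZero (laurentBaseChange L (modularFunctionFieldFull N)) :=
    charZero_of_injective_ringHom
      (algebraMap L (laurentBaseChange L (modularFunctionFieldFull N))).injective
  have key := @norm_eq_prod_of_embeddings _ _ _ _ _ _ _ _
    (algebraAlong (heckeAlphaBar L N ℓ)) hfin _ _ (i.comp ((qExpand L ℓ).comp v₀)) σ hσ hinj
    (by rw [Fintype.card_option, Fintype.card_fin]; exact hdeg.symm) (heckeBetaBar L N ℓ y)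
  rw [Fintype.prod_option, hinf] at key
  simp only [hb] at key
  refine i.injective ?_
  rw [map_mul, map_prod]
  exact key

end FLTAgent.Kronecker
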