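import Fermat.Agent.Kronecker.Naturality
import Fermat.Agent.Kronecker.Ramification
import Fermat.Prelude.Def_ModularCurve_ReductionModL

/-!
# Reduction of places and degeneracy maps

For maps `φ`, `φ'` of function fields of modular curves with `φ'` the reduction of `φ` on integral
series (`IsReductionOf`), reduction of places commutes with pullback of degree-zero divisors
(`mapDomain_pullbackAlong_compat`, by `eq_zero_of_degree_eq_zero`), with restriction of places
when the two degrees agree (`restrictAlong_compat`), and hence with pushforward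
(`mapDomain_pushforwardAlong_compat`).
-/

set_option autoImplicit false
set_option linter.style.haveILetI false

noncomputable section

open ModularCurve AlgebraicCurve

namespace FLTAgent.Kronecker

variable {L : Type*} [Field L] [Algebra ℚ L] {A : ValuationSubring L}
variable {k : Type*} [Field k] {π : A →+* k} {N M : ℕ}
variable {rN : Place L (laurentBaseChange L (modularFunctionFieldFull N)) →
  Place k (modularFunctionFieldFullC k N)}
variable {rM : Place L (laurentBaseChange L (modularFunctionFieldFull M)) →
  Place k (modularFunctionFieldFullC k M)}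
variable (φ : laurentBaseChange L (modularFunctionFieldFull N) →ₐ[L]
  laurentBaseChange L (modularFunctionFieldFull M)) (hφ : φ.toRingHom.IsIntegral)
variable (φ' : modularFunctionFieldFullC k N →ₐ[k] modularFunctionFieldFullC k M)
  (hφ' : φ'.toRingHom.IsIntegral)

/-- `φ'` is the reduction of `φ` on integral series. -/
def IsReductionOf (A : ValuationSubring L) (π : A →+* k) : Prop :=
  ∃ Φ : LaurentSeries A → LaurentSeries A,
    (∀ (y : LaurentSeries A)
      (hy : coeffMap A.subtype y ∈ laurentBaseChange L (modularFunctionFieldFull N)),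
      ((φ ⟨coeffMap A.subtype y, hy⟩ : laurentBaseChange L (modularFunctionFieldFull M)) :
        LaurentSeries L) = coeffMap A.subtype (Φ y)) ∧
    ∀ (y : LaurentSeries A) (hy : coeffMap π y ∈ modularFunctionFieldFullC k N),
      ((φ' ⟨coeffMap π y, hy⟩ : modularFunctionFieldFullC k M) : LaurentSeries k) =
        coeffMap π (Φ y)

variable [HasPrincipalDivisors L (laurentBaseChange L (modularFunctionFieldFull N))]
variable [HasPrincipalDivisors L (laurentBaseChange L (modularFunctionFieldFull M))]
variable [HasPrincipalDivisors k (modularFunctionFieldFullC k M)]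

/-- Reduction commutes with pullback on divisors of degree zero. -/
theorem mapDomain_pullbackAlong_compat (hred : IsReductionOf φ φ' A π)
    (hrN : IsPlaceReductionAlong A π N rN) (hrM : IsPlaceReductionAlong A π M rM)
    (hgen : PrincipalGeneratedByIntegral A π N)
    (hdeg : ∀ v : Place L (laurentBaseChange L (modularFunctionFieldFull N)), v.deg = 1)
    (hdeg' : ∀ v : Place L (laurentBaseChange L (modularFunctionFieldFull M)), v.deg = 1)
    (hRR : HasRiemannBound L (laurentBaseChange L (modularFunctionFieldFull N)))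
    (hFI : FundamentalIdentityAlong L φ hφ)
    (hB : ∃ B : ℕ, ∀ Q : Place k (modularFunctionFieldFullC k M),
      Q.ramificationIndexAlong φ' ≤ B)
    {D : Divisor L (laurentBaseChange L (modularFunctionFieldFull N))}
    (hD : Divisor.degree D = 0) :
    Finsupp.mapDomain rM (Divisor.pullbackAlong φ hφ D) =
      Divisor.pullbackAlong φ' hφ' (Finsupp.mapDomain rN D) := by
  classical
  obtain ⟨Φ, hΦ, hΦ'⟩ := hred
  obtain ⟨B, hB⟩ := hB
  let Δ := (Finsupp.mapDomain.addMonoidHom (M := ℤ) rM).comp (Divisor.pullbackAlong φ hφ) -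
    (Divisor.pullbackAlong φ' hφ').comp (Finsupp.mapDomain.addMonoidHom (M := ℤ) rN)
  have happ : ∀ E, Δ E = Finsupp.mapDomain rM (Divisor.pullbackAlong φ hφ E) -
      Divisor.pullbackAlong φ' hφ' (Finsupp.mapDomain rN E) := fun E => rfl
  have hbdd : IsBounded Δ := by
    refine IsBounded.sub ⟨finrankAlong L φ, fun P i => ?_⟩ ⟨B, fun P Q => ?_⟩
    · show |Finsupp.mapDomain rM (Divisor.pullbackAlong φ hφ (Finsupp.single P (1 : ℤ))) i| ≤ _
      rw [Divisor.pullbackAlong_single]
      refine (abs_mapDomain_sum_single_le rM _ _ _ i).trans (le_of_eq ?_)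
      have hs := sum_fiberAlong_ramification_mul_deg φ hφ hFI P
      rw [hdeg P, Nat.cast_one, mul_one] at hs
      refine (Finset.sum_congr rfl fun W _ => ?_).trans hs
      rw [one_mul, hdeg', Nat.cast_one, mul_one, abs_of_nonneg (Int.natCast_nonneg _)]
    · show |Divisor.pullbackAlong φ' hφ' (Finsupp.mapDomain rN (Finsupp.single P (1 : ℤ))) Q| ≤ _
      rw [Finsupp.mapDomain_single, Divisor.pullbackAlong_apply, Finsupp.single_apply, abs_mul,
        Nat.abs_cast]
      have h1 : (Q.ramificationIndexAlong φ' : ℤ) ≤ B := by exact_mod_cast hB Q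
      split_ifs
      · simpa using h1
      · simp
  have hint : ∀ E ∈ integralPrincipalDivisors A π N, Δ E = 0 := by
    rintro E ⟨y, hy, hyk, hne, hEy⟩
    rw [happ, sub_eq_zero]
    ext Q
    have hy' : coeffMap A.subtype (Φ y) ∈ laurentBaseChange L (modularFunctionFieldFull M) := by
      rw [← hΦ y hy]; exact SetLike.coe_mem _
    have hyk' : coeffMap π (Φ y) ∈ modularFunctionFieldFullC k M := by
      rw [← hΦ' y hyk]; exact SetLike.coe_mem _
    have hne' : coeffMap π (Φ y) ≠ 0 := by
      rw [← hΦ' y hyk]
      intro h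
      exact hne (congrArg Subtype.val (φ'.toRingHom.injective
        ((Subtype.ext h : φ' ⟨coeffMap π y, hyk⟩ = 0).trans (map_zero φ').symm)))
    have hdiv : ∀ W, Divisor.pullbackAlong φ hφ E W = W.ord
        (⟨coeffMap A.subtype (Φ y), hy'⟩ :
          laurentBaseChange L (modularFunctionFieldFull M)) := fun W => by
      rw [Divisor.pullbackAlong_apply, hEy, ← Place.ord_restrictAlong]
      exact congrArg W.ord (Subtype.ext (hΦ y hy))
    rw [hrM.2 _ hy' hyk' hne' _ hdiv Q, Divisor.pullbackAlong_apply, hrN.2 y hy hyk hne E hEy,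
      ← Place.ord_restrictAlong]
    exact congrArg Q.ord (Subtype.ext (hΦ' y hyk).symm)
  have h0 := eq_zero_of_degree_eq_zero hdeg hRR hbdd (forall_principal_of_integral Δ hgen hint) hD
  rw [happ, sub_eq_zero] at h0
  exact h0

/-- Reduction commutes with restriction of places when the degree does not drop. -/
theorem restrictAlong_compat (hred : IsReductionOf φ φ' A π)
    (hrN : IsPlaceReductionAlong A π N rN) (hrM : IsPlaceReductionAlong A π M rM)
    (hgen : PrincipalGeneratedByIntegral A π N)
    (hdeg : ∀ v : Place L (laurentBaseChange L (modularFunctionFieldFull N)), v.deg = 1)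
    (hdeg' : ∀ v : Place L (laurentBaseChange L (modularFunctionFieldFull M)), v.deg = 1)
    (hdegk : ∀ v : Place k (modularFunctionFieldFullC k M), v.deg = 1)
    (hRR : HasRiemannBound L (laurentBaseChange L (modularFunctionFieldFull N)))
    (hFI : FundamentalIdentityAlong L φ hφ) (hFI' : FundamentalIdentityAlong k φ' hφ')
    (hB : ∃ B : ℕ, ∀ Q : Place k (modularFunctionFieldFullC k M),
      Q.ramificationIndexAlong φ' ≤ B)
    (hfr : finrankAlong L φ = finrankAlong k φ') (hnc : ∀ P, ∃ P', rN P' ≠ rN P)
    (W : Place L (laurentBaseChange L (modularFunctionFieldFull M))) :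
    (rM W).restrictAlong φ' hφ' = rN (W.restrictAlong φ hφ) := by
  classical
  set P := W.restrictAlong φ hφ with hP
  set e := fun P₀ : Place L (laurentBaseChange L (modularFunctionFieldFull N)) =>
    Finsupp.mapDomain rM (Divisor.pullbackAlong φ hφ (Finsupp.single P₀ (1 : ℤ))) with he
  set b := fun P₀ : Place L (laurentBaseChange L (modularFunctionFieldFull N)) =>
    Divisor.pullbackAlong φ' hφ' (Finsupp.single (rN P₀) (1 : ℤ)) with hb
  obtain ⟨P', hP'⟩ := hnc P
  have hrel : e P - b P = e P' - b P' := by
    have h := mapDomain_pullbackAlong_compat φ hφ φ' hφ' hred hrN hrM hgen hdeg hdeg' hRR hFI hB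
      (D := Finsupp.single P (1 : ℤ) - Finsupp.single P' (1 : ℤ))
      (by rw [map_sub, Divisor.degree_single, Divisor.degree_single, hdeg, hdeg, sub_self])
    rw [map_sub, Finsupp.mapDomain_sub, Finsupp.mapDomain_sub, Finsupp.mapDomain_single,
      Finsupp.mapDomain_single, map_sub] at h
    exact sub_eq_sub_iff_sub_eq_sub.mpr h
  have hpb : ∀ (P₀ : Place L (laurentBaseChange L (modularFunctionFieldFull N))) W₀,
      0 ≤ Divisor.pullbackAlong φ hφ (Finsupp.single P₀ (1 : ℤ)) W₀ := fun P₀ W₀ => by
    rw [Divisor.pullbackAlong_apply, Finsupp.single_apply]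
    split_ifs <;> simp
  have henn : ∀ P₀ Q, 0 ≤ e P₀ Q := fun P₀ Q => mapDomain_nonneg rM _ (hpb P₀) Q
  have hbnn : ∀ P₀ Q, 0 ≤ b P₀ Q := fun P₀ Q => by
    show 0 ≤ Divisor.pullbackAlong φ' hφ' (Finsupp.single (rN P₀) (1 : ℤ)) Q
    rw [Divisor.pullbackAlong_apply, Finsupp.single_apply]
    split_ifs <;> simp
  have hge : ∀ Q, 0 ≤ (e P - b P) Q := fun Q => by
    rcases eq_or_ne (b P Q) 0 with h | h
    · rw [Finsupp.sub_apply, h, sub_zero]; exact henn P Q
    · have hQ : Q.restrictAlong φ' hφ' = rN P := by
        by_contra hne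
        apply h
        show Divisor.pullbackAlong φ' hφ' (Finsupp.single (rN P) (1 : ℤ)) Q = 0
        rw [Divisor.pullbackAlong_apply, Finsupp.single_eq_of_ne hne, mul_zero]
      have h0 : b P' Q = 0 := by
        show Divisor.pullbackAlong φ' hφ' (Finsupp.single (rN P') (1 : ℤ)) Q = 0
        rw [Divisor.pullbackAlong_apply, hQ, Finsupp.single_eq_of_ne hP'.symm, mul_zero]
      rw [hrel, Finsupp.sub_apply, h0, sub_zero]
      exact henn P' Q
  have hdeg0 : Divisor.degree (e P - b P) = 0 := by
    rw [map_sub]
    show Divisor.degree (Finsupp.mapDomain rM _) -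
      Divisor.degree (Divisor.pullbackAlong φ' hφ' _) = 0
    rw [degree_mapDomain_of_deg_eq hrM.1, Divisor.degree_pullbackAlong φ hφ hFI,
      Divisor.degree_pullbackAlong φ' hφ' hFI', Divisor.degree_single, Divisor.degree_single,
      hrN.1, hfr, sub_self]
  have heq : e P = b P := sub_eq_zero.mp (eq_zero_of_nonneg_of_degree_eq_zero hdegk hge hdeg0)
  have hpos : 0 < e P (rM W) := by
    refine lt_of_lt_of_le ?_ (le_mapDomain_apply rM _ (hpb P) W)
    rw [Divisor.pullbackAlong_apply, ← hP, Finsupp.single_eq_same, mul_one]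
    letI := algebraAlong φ
    haveI := isScalarTower_along φ
    haveI := isIntegral_along φ hφ
    exact_mod_cast W.ramificationIndex_pos (F := laurentBaseChange L (modularFunctionFieldFull N))
  rw [heq] at hpos
  by_contra hne
  have h0 : b P (rM W) = 0 := by
    show Divisor.pullbackAlong φ' hφ' (Finsupp.single (rN P) (1 : ℤ)) (rM W) = 0
    rw [Divisor.pullbackAlong_apply, Finsupp.single_eq_of_ne hne, mul_zero]
  omega

omit [HasPrincipalDivisors L (laurentBaseChange L (modularFunctionFieldFull N))]
  [HasPrincipalDivisors L (laurentBaseChange L (modularFunctionFieldFull M))]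
  [HasPrincipalDivisors k (modularFunctionFieldFullC k M)] in
/-- Reduction commutes with pushforward. -/
theorem mapDomain_pushforwardAlong_compat
    (hres : ∀ W, (rM W).restrictAlong φ' hφ' = rN (W.restrictAlong φ hφ))
    (hdeg : ∀ v : Place L (laurentBaseChange L (modularFunctionFieldFull N)), v.deg = 1)
    (hdeg' : ∀ v : Place L (laurentBaseChange L (modularFunctionFieldFull M)), v.deg = 1)
    (hdegk : ∀ v : Place k (modularFunctionFieldFullC k N), v.deg = 1)
    (hdegk' : ∀ v : Place k (modularFunctionFieldFullC k M), v.deg = 1)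
    (E : Divisor L (laurentBaseChange L (modularFunctionFieldFull M))) :
    Finsupp.mapDomain rN (Divisor.pushforwardAlong φ hφ E) =
      Divisor.pushforwardAlong φ' hφ' (Finsupp.mapDomain rM E) := by
  induction E using Finsupp.induction with
  | zero => simp
  | single_add W n E _ _ ih =>
      have h1 := deg_restrictAlong_mul_inertiaDegAlong φ hφ W
      rw [hdeg, hdeg', one_mul] at h1
      have h2 := deg_restrictAlong_mul_inertiaDegAlong φ' hφ' (rM W)
      rw [hdegk, hdegk', one_mul] at h2
      rw [map_add, Finsupp.mapDomain_add, Finsupp.mapDomain_add, map_add, ih,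
        Finsupp.mapDomain_single, Divisor.pushforwardAlong_single,
        Divisor.pushforwardAlong_single, Finsupp.mapDomain_single, h1, h2, hres]

end FLTAgent.Kronecker
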