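import Fermat.Agent.Kronecker.Naturality
import Fermat.Agent.Kronecker.NormProduct

/-!
# The Kronecker congruence on divisor classes

Modulo `ℓ ∤ N` the Hecke correspondence `T_ℓ` is `F + ℓ F⁻¹`, with `F` the coefficient Frobenius
(`reductionPic0Along_heckePic0Bar`).  The norm of an integral function from level `N ℓ` reduces to
`F y · (F⁻¹ y) ^ ℓ` (`exists_integral_normAlpha`), which gives the congruence on principal
divisors; a boundedness argument extends it to all divisors of degree zero.
-/

set_option autoImplicit false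
set_option linter.style.haveILetI false

-- This instance never applies here, and refuting it on Laurent series is slow.
attribute [-instance] IsScalarTower.of_algHom

noncomputable section

open ModularCurve AlgebraicCurve

namespace FLTAgent.Kronecker

/-! ### Generalities on correspondences -/

section Correspondence

variable {K F F' : Type*} [Field K] [Field F] [Field F'] [Algebra K F] [Algebra K F']
variable [HasPrincipalDivisors K F'] (φ ψ : F →ₐ[K] F')
variable (hφ : φ.toRingHom.IsIntegral) (hψ : ψ.toRingHom.IsIntegral)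

theorem sum_fiberAlong_ramification_mul_deg (hFI : FundamentalIdentityAlong K φ hφ)
    (P : Place K F) :
    ∑ W ∈ Place.fiberAlong φ hφ P, ((W.ramificationIndexAlong φ : ℤ) * (W.deg : ℤ)) =
      (finrankAlong K φ : ℤ) * (P.deg : ℤ) := by
  letI := algebraAlong φ
  haveI := isScalarTower_along φ
  haveI := isIntegral_along φ hφ
  haveI : FundamentalIdentity K F F' := hFI
  exact FundamentalIdentity.sum_ramificationIndex_mul_deg (K := K) (F := F) (F' := F') P

omit [HasPrincipalDivisors K F'] in
theorem deg_restrictAlong_mul_inertiaDegAlong (W : Place K F') :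
    (W.restrictAlong φ hφ).deg * W.inertiaDegAlong φ hφ = W.deg := by
  letI := algebraAlong φ
  haveI := isScalarTower_along φ
  haveI := isIntegral_along φ hφ
  exact W.deg_restrict_mul_inertiaDeg

theorem isBounded_mapDomain_correspondence {ι : Type*} (r : Place K F → ι)
    (hFI : FundamentalIdentityAlong K φ hφ) (hdeg : ∀ v : Place K F, v.deg = 1) :
    IsBounded ((Finsupp.mapDomain.addMonoidHom (M := ℤ) r).comp
      (Divisor.correspondence φ ψ hφ hψ)) := by
  refine ⟨finrankAlong K φ, fun P i => ?_⟩
  have h : ((Finsupp.mapDomain.addMonoidHom (M := ℤ) r).comp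
      (Divisor.correspondence φ ψ hφ hψ)) (Finsupp.single P 1) =
      Finsupp.mapDomain r (∑ W ∈ Place.fiberAlong φ hφ P,
        Finsupp.single (W.restrictAlong ψ hψ)
          ((1 : ℤ) * W.ramificationIndexAlong φ * W.inertiaDegAlong ψ hψ)) := by
    show Finsupp.mapDomain r (Divisor.correspondence φ ψ hφ hψ (Finsupp.single P (1 : ℤ))) = _
    rw [Divisor.correspondence_apply, Divisor.pullbackAlong_single, map_sum]
    simp only [Divisor.pushforwardAlong_single]
  rw [h]
  refine (abs_mapDomain_sum_single_le r _ _ _ i).trans (le_of_eq ?_)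
  have hs := sum_fiberAlong_ramification_mul_deg φ hφ hFI P
  rw [hdeg P, Nat.cast_one, mul_one] at hs
  refine (Finset.sum_congr rfl fun W _ => ?_).trans hs
  have hW := deg_restrictAlong_mul_inertiaDegAlong ψ hψ W
  rw [hdeg, one_mul] at hW
  rw [one_mul, hW, abs_of_nonneg (by positivity)]

theorem correspondence_apply_eq_ord_norm (hfin : FiniteAlong K ψ)
    (hN : NormFormulaAlong K ψ hfin) {f : F} (hf : f ≠ 0) {D : Divisor K F}
    (hD : ∀ v, D v = v.ord f) (v : Place K F) :
    Divisor.correspondence φ ψ hφ hψ D v =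
      v.ord ((letI := algebraAlong ψ; Algebra.norm F (φ f))) := by
  have hpb : ∀ w, Divisor.pullbackAlong φ hφ D w = w.ord (φ f) := fun w => by
    rw [Divisor.pullbackAlong_apply, hD, ← Place.ord_restrictAlong]
  rw [Divisor.correspondence_apply]
  letI := algebraAlong ψ
  haveI := isScalarTower_along ψ
  haveI := isIntegral_along ψ hψ
  haveI : Module.Finite F F' := hfin
  exact hN (φ f) ((map_ne_zero φ.toRingHom).mpr hf) _ hpb v

end Correspondence

/-! ### The congruence -/

section Congruence

variable {L : Type*} [Field L] [Algebra ℚ L] {A : ValuationSubring L}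
variable {k : Type*} [Field k] {π : A →+* k} {N ℓ : ℕ} [NeZero N] [NeZero ℓ]
variable [Fact ℓ.Prime] [CharP k ℓ] [PerfectRing k ℓ]
variable {r : Place L (laurentBaseChange L (modularFunctionFieldFull N)) →
  Place k (modularFunctionFieldFullC k N)}

/-- The norm of an `A`-integral function is integral and reduces to `F(y) · F⁻¹(y)^ℓ`. -/
theorem exists_integral_normAlpha (hfin : FiniteAlong L (heckeAlphaBar L N ℓ))
    (hfr : finrankAlong L (heckeAlphaBar L N ℓ) = ℓ + 1) (hswap : HasSwap L N ℓ)
    (ζ : A) (hζ : IsPrimitiveRoot ζ ℓ) (y : LaurentSeries A)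
    (hy : coeffMap A.subtype y ∈ laurentBaseChange L (modularFunctionFieldFull N)) :
    ∃ z : LaurentSeries A,
      coeffMap A.subtype z =
          ((normAlpha L N ℓ (heckeBetaBar L N ℓ ⟨coeffMap A.subtype y, hy⟩) :
            laurentBaseChange L (modularFunctionFieldFull N)) : LaurentSeries L) ∧
        coeffMap π z =
          coeffMap ((frobeniusEquiv k ℓ).symm : k →+* k) (coeffMap π y) ^ ℓ *
            coeffMap (frobenius k ℓ) (coeffMap π y) := by
  set u : Aˣ := (hζ.isUnit (NeZero.ne ℓ)).unit
  have hu : (u : A) = ζ := IsUnit.unit_spec _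
  set ζL : Lˣ := Units.map (A.subtype : A →* L) u with hζL
  have hζL' : IsPrimitiveRoot (ζL : L) ℓ := by
    rw [hζL, Units.coe_map]
    show IsPrimitiveRoot (A.subtype (u : A)) ℓ
    rw [hu]
    exact hζ.map_of_injective Subtype.val_injective
  have hnorm := qExpand_normAlpha_heckeBetaBar hfin hfr hswap ζL hζL' ⟨coeffMap A.subtype y, hy⟩
  set Z := ((normAlpha L N ℓ (heckeBetaBar L N ℓ ⟨coeffMap A.subtype y, hy⟩) :
    laurentBaseChange L (modularFunctionFieldFull N)) : LaurentSeries L)
  set w : LaurentSeries A := qExpand A ℓ (qExpand A ℓ y) *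
    ∏ b : Fin ℓ, twist (u ^ (b : ℕ)) y with hw
  have hwL : coeffMap A.subtype w = qExpand L ℓ Z := by
    rw [hnorm, hw, map_mul, map_prod, ModularCurve.coeffMap_qExpand,
      ModularCurve.coeffMap_qExpand]
    simp only [coeffMap_twist, map_pow, hζL]
  have hmem : ∀ i, Z.coeff i ∈ A := fun i => by
    have h := congrArg (fun x : LaurentSeries L => x.coeff ((ℓ : ℤ) * i)) hwL
    simp only [coeffMap_coeff, qExpand_coeff_mul] at h
    rw [← h]
    exact (w.coeff _).2
  let z : LaurentSeries A :=
    { coeff := fun i => ⟨Z.coeff i, hmem i⟩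
      isPWO_support' := Z.isPWO_support.mono fun i hi h => hi (Subtype.ext h) }
  refine ⟨z, HahnSeries.ext (funext fun i => rfl), ?_⟩
  have hzw : qExpand A ℓ z = w := by
    ext i
    have h := congrArg (fun x : LaurentSeries L => x.coeff i) hwL
    have h' : coeffMap A.subtype (qExpand A ℓ z) = qExpand L ℓ Z := by
      rw [ModularCurve.coeffMap_qExpand]
      exact congrArg (qExpand L ℓ) (HahnSeries.ext (funext fun j => rfl))
    exact (congrArg (fun x : LaurentSeries L => x.coeff i) h').trans h.symm
  have hone : π ζ = 1 := frobenius_inj k ℓ (by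
    rw [frobenius_def, frobenius_def, one_pow, ← map_pow, hζ.pow_eq_one, map_one])
  have hu1 : Units.map (π : A →* k) u = 1 := Units.ext (by
    rw [Units.coe_map, Units.val_one]
    show π (u : A) = 1
    rw [hu, hone])
  apply qExpand_injective ℓ
  rw [← ModularCurve.coeffMap_qExpand, hzw, hw, map_mul, map_prod, ModularCurve.coeffMap_qExpand,
    ModularCurve.coeffMap_qExpand, map_mul]
  simp only [coeffMap_twist, map_pow, hu1, one_pow, twist_one, Finset.prod_const,
    Finset.card_univ, Fintype.card_fin]
  have hroot : coeffMap ((frobeniusEquiv k ℓ).symm : k →+* k) (coeffMap π y) ^ ℓ =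
      qExpand k ℓ (coeffMap π y) := by
    rw [pow_char_eq_qExpand ℓ, coeffMap_coeffMap]
    refine congrArg _ ((coeffMap_congr (g := RingHom.id k) (RingHom.ext fun a => ?_) _).trans
      (coeffMap_id _))
    exact (frobeniusEquiv k ℓ).apply_symm_apply a
  rw [← map_pow (qExpand k ℓ), hroot, pow_char_eq_qExpand ℓ]

variable [HasPrincipalDivisors L (laurentBaseChange L (modularFunctionFieldFull (N * ℓ)))]

theorem mapDomain_heckeDivBar
    [HasPrincipalDivisors L (laurentBaseChange L (modularFunctionFieldFull N))]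
    (hr : IsPlaceReductionAlong A π N r) (hgen : PrincipalGeneratedByIntegral A π N)
    (hdeg : ∀ v : Place L (laurentBaseChange L (modularFunctionFieldFull N)), v.deg = 1)
    (hRR : HasRiemannBound L (laurentBaseChange L (modularFunctionFieldFull N)))
    (hα : HeckeAlphaBarIntegral L N ℓ) (hβ : HeckeBetaBarIntegral L N ℓ)
    (hFI : FundamentalIdentityAlong L (heckeBetaBar L N ℓ) hβ)
    (hfin : FiniteAlong L (heckeAlphaBar L N ℓ))
    (hN : NormFormulaAlong L (heckeAlphaBar L N ℓ) hfin)
    (hfr : finrankAlong L (heckeAlphaBar L N ℓ) = ℓ + 1) (hswap : HasSwap L N ℓ)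
    (ζ : A) (hζ : IsPrimitiveRoot ζ ℓ)
    {D : Divisor L (laurentBaseChange L (modularFunctionFieldFull N))}
    (hD : Divisor.degree D = 0) :
    Finsupp.mapDomain r (heckeDivBar hα hβ D) =
      coeffGalois N (frobeniusEquiv k ℓ) • Finsupp.mapDomain r D +
        ℓ • (coeffGalois N (frobeniusEquiv k ℓ))⁻¹ • Finsupp.mapDomain r D := by
  set g := coeffGalois N (frobeniusEquiv k ℓ) with hg
  set R := Finsupp.mapDomain.addMonoidHom (M := ℤ) r with hR
  let Δ := R.comp (heckeDivBar hα hβ) -
    ((DistribSMul.toAddMonoidHom (Divisor k (modularFunctionFieldFullC k N)) g).comp R +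
      ℓ • (DistribSMul.toAddMonoidHom (Divisor k (modularFunctionFieldFullC k N)) g⁻¹).comp R)
  have happ : ∀ E, Δ E = Finsupp.mapDomain r (heckeDivBar hα hβ E) -
      (g • Finsupp.mapDomain r E + ℓ • g⁻¹ • Finsupp.mapDomain r E) := fun E => rfl
  have hbdd : IsBounded Δ := by
    refine IsBounded.sub (isBounded_mapDomain_correspondence _ _ hβ hα r hFI hdeg)
      (IsBounded.add (isBounded_of_single _ (fun P => g • r P) fun P => ?_)
        (IsBounded.nsmul ℓ (isBounded_of_single _ (fun P => g⁻¹ • r P) fun P => ?_)))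
    · show g • Finsupp.mapDomain r (Finsupp.single P (1 : ℤ)) = _
      rw [Finsupp.mapDomain_single, SemilinearAut.smul_single]
    · show g⁻¹ • Finsupp.mapDomain r (Finsupp.single P (1 : ℤ)) = _
      rw [Finsupp.mapDomain_single, SemilinearAut.smul_single]
  have hint : ∀ E ∈ integralPrincipalDivisors A π N, Δ E = 0 := by
    rintro E ⟨y, hy, hyk, hne, hEy⟩
    rw [happ, sub_eq_zero]
    ext Q
    have hne0 : (⟨coeffMap A.subtype y, hy⟩ :
        laurentBaseChange L (modularFunctionFieldFull N)) ≠ 0 := fun h => hne (by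
      have h' : y = 0 := HahnSeries.ext (funext fun i => Subtype.ext
        (congrArg (fun x : LaurentSeries L => x.coeff i) (congrArg Subtype.val h)))
      rw [h', map_zero])
    obtain ⟨z, hz, hzk⟩ := exists_integral_normAlpha (π := π) hfin hfr hswap ζ hζ y hy
    have hzmem : coeffMap A.subtype z ∈ laurentBaseChange L (modularFunctionFieldFull N) := by
      rw [hz]; exact SetLike.coe_mem _
    have hzdiv : ∀ P, heckeDivBar hα hβ E P = P.ord
        (⟨coeffMap A.subtype z, hzmem⟩ : laurentBaseChange L (modularFunctionFieldFull N)) :=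
      fun P => (correspondence_apply_eq_ord_norm _ _ hβ hα hfin hN hne0 hEy P).trans
        (congrArg P.ord (Subtype.ext hz.symm))
    set f : modularFunctionFieldFullC k N := ⟨coeffMap π y, hyk⟩ with hf
    have hzk' : coeffMap π z = (((g⁻¹ • f) ^ ℓ * (g • f) : modularFunctionFieldFullC k N) :
        LaurentSeries k) := hzk
    have hf0 : f ≠ 0 := fun h => hne (congrArg Subtype.val h)
    have hgf : g • f ≠ 0 := (map_ne_zero (SemilinearAut.toRingAut g).toRingHom).mpr hf0
    have hgf' : g⁻¹ • f ≠ 0 := (map_ne_zero (SemilinearAut.toRingAut g⁻¹).toRingHom).mpr hf0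
    have hzkmem : coeffMap π z ∈ modularFunctionFieldFullC k N := by
      rw [hzk']; exact SetLike.coe_mem _
    have hzne : coeffMap π z ≠ 0 := by
      rw [hzk']
      exact fun h => mul_ne_zero (pow_ne_zero ℓ hgf') hgf (Subtype.ext h)
    have hsmul : ∀ g' : SemilinearAut k (modularFunctionFieldFullC k N),
        (g' • Finsupp.mapDomain r E) Q = Q.ord (g' • f) := fun g' => by
      rw [SemilinearAut.divisor_smul_apply, hr.2 y hy hyk hne E hEy]
      refine (SemilinearAut.ord_smul g' (g'⁻¹ • Q) f).symm.trans ?_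
      rw [smul_inv_smul]
    rw [hr.2 z hzmem hzkmem hzne _ hzdiv Q, Finsupp.add_apply, Finsupp.smul_apply, hsmul, hsmul,
      nsmul_eq_mul, show (⟨coeffMap π z, hzkmem⟩ : modularFunctionFieldFullC k N) =
        (g⁻¹ • f) ^ ℓ * (g • f) from Subtype.ext hzk', Place.ord_mul _ (pow_ne_zero ℓ hgf') hgf,
      ← zpow_natCast, Place.ord_zpow]
    ring
  have h0 := eq_zero_of_degree_eq_zero hdeg hRR hbdd (forall_principal_of_integral Δ hgen hint) hD
  rw [happ, sub_eq_zero] at h0
  exact h0

/-- The Eichler–Shimura congruence on divisor classes. -/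
theorem reductionPic0Along_heckePic0Bar
    [HasPrincipalDivisors L (laurentBaseChange L (modularFunctionFieldFull N))]
    (hr : IsPlaceReductionAlong A π N r) (hgen : PrincipalGeneratedByIntegral A π N)
    (hdeg : ∀ v : Place L (laurentBaseChange L (modularFunctionFieldFull N)), v.deg = 1)
    (hRR : HasRiemannBound L (laurentBaseChange L (modularFunctionFieldFull N)))
    (hα : HeckeAlphaBarIntegral L N ℓ) (hβ : HeckeBetaBarIntegral L N ℓ)
    (hFI : FundamentalIdentityAlong L (heckeBetaBar L N ℓ) hβ)
    (hfin : FiniteAlong L (heckeAlphaBar L N ℓ))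
    (hN : NormFormulaAlong L (heckeAlphaBar L N ℓ) hfin)
    (hfr : finrankAlong L (heckeAlphaBar L N ℓ) = ℓ + 1) (hswap : HasSwap L N ℓ)
    (ζ : A) (hζ : IsPrimitiveRoot ζ ℓ)
    (x : Pic0 L (laurentBaseChange L (modularFunctionFieldFull N))) :
    reductionPic0Along r hr hgen (heckePic0Bar hα hβ hFI hfin hN x) =
      coeffGalois N (frobeniusEquiv k ℓ) • reductionPic0Along r hr hgen x +
        ℓ • (coeffGalois N (frobeniusEquiv k ℓ))⁻¹ • reductionPic0Along r hr hgen x := by
  obtain ⟨D, rfl⟩ := Pic0.mk_surjective x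
  rw [heckePic0Bar, Pic0.correspondence_mk, reductionPic0Along_mk, reductionPic0Along_mk,
    SemilinearAut.pic0_smul_mk, SemilinearAut.pic0_smul_mk]
  refine Eq.trans (congrArg Pic0.mk (Subtype.ext ?_)) (Pic0.mk_add _ _)
    |>.trans (congrArg (_ + ·) (map_nsmul (QuotientAddGroup.mk' _) ℓ _))
  exact mapDomain_heckeDivBar hr hgen hdeg hRR hα hβ hFI hfin hN hfr hswap ζ hζ D.2

end Congruence

end FLTAgent.Kronecker
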