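import Fermat.Agent.Kronecker.CoeffGalois
import Fermat.Agent.Kronecker.Bounded
import Fermat.Prelude.Def_ModularCurve_ReductionModL

/-!
# Galois equivariance of reduction

`reductionPic0Along_smul`: a reduction of places compatible with divisors of integral functions
intertwines, on divisor classes, an automorphism preserving the valuation ring with the induced
automorphism of the coefficients.  The difference of the two sides is bounded on points and
vanishes on principal divisors (`forall_principal_of_integral`), hence on degree zero.
-/

set_option autoImplicit false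
set_option linter.style.haveILetI false

noncomputable section

open ModularCurve AlgebraicCurve

namespace FLTAgent.Kronecker

variable {L : Type*} [Field L] [Algebra ℚ L] {A : ValuationSubring L}
variable {k : Type*} [Field k] {π : A →+* k} {N : ℕ}
variable {r : Place L (laurentBaseChange L (modularFunctionFieldFull N)) →
  Place k (modularFunctionFieldFullC k N)}

/-- It is enough to check a homomorphism on divisors of integral functions. -/
theorem forall_principal_of_integral {ι : Type*}
    (Δ : Divisor L (laurentBaseChange L (modularFunctionFieldFull N)) →+ (ι →₀ ℤ))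
    (hgen : PrincipalGeneratedByIntegral A π N)
    (h : ∀ D ∈ integralPrincipalDivisors A π N, Δ D = 0) :
    ∀ D ∈ Divisor.principal (K := L) (F := laurentBaseChange L (modularFunctionFieldFull N)),
      Δ D = 0 :=
  fun _ hD => (AddMonoidHom.mem_ker (f := Δ)).mp
    ((AddSubgroup.closure_le _).mpr (fun E hE => AddMonoidHom.mem_ker.mpr (h E hE)) (hgen hD))

/-- Reduction of divisors of degree zero is equivariant. -/
theorem mapDomain_arithmeticGalois_smul
    [HasPrincipalDivisors L (laurentBaseChange L (modularFunctionFieldFull N))]
    (hr : IsPlaceReductionAlong A π N r) (hgen : PrincipalGeneratedByIntegral A π N)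
    (hdeg : ∀ v : Place L (laurentBaseChange L (modularFunctionFieldFull N)), v.deg = 1)
    (hRR : HasRiemannBound L (laurentBaseChange L (modularFunctionFieldFull N)))
    (σ : L ≃ₐ[ℚ] L) (σA : A →+* A) (hσA : ∀ a, (σA a : L) = σ a)
    (τ : RingAut k) (hτ : ∀ a, π (σA a) = τ (π a))
    {D : Divisor L (laurentBaseChange L (modularFunctionFieldFull N))}
    (hD : Divisor.degree D = 0) :
    Finsupp.mapDomain r (arithmeticGalois (modularFunctionFieldFull N) σ • D) =
      coeffGalois N τ • Finsupp.mapDomain r D := by
  set g := arithmeticGalois (modularFunctionFieldFull N) σ with hg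
  set R := Finsupp.mapDomain.addMonoidHom (M := ℤ) r with hR
  let Δ := R.comp (DistribSMul.toAddMonoidHom
      (Divisor L (laurentBaseChange L (modularFunctionFieldFull N))) g) -
    (DistribSMul.toAddMonoidHom (Divisor k (modularFunctionFieldFullC k N))
      (coeffGalois N τ)).comp R
  have happ : ∀ E, Δ E =
      Finsupp.mapDomain r (g • E) - coeffGalois N τ • Finsupp.mapDomain r E := fun E => rfl
  have hbdd : IsBounded Δ := by
    refine IsBounded.sub (isBounded_of_single _ (fun P => r (g • P)) fun P => ?_)
      (isBounded_of_single _ (fun P => coeffGalois N τ • r P) fun P => ?_)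
    · show Finsupp.mapDomain r (g • Finsupp.single P (1 : ℤ)) = _
      rw [SemilinearAut.smul_single, Finsupp.mapDomain_single]
    · show coeffGalois N τ • Finsupp.mapDomain r (Finsupp.single P (1 : ℤ)) = _
      rw [Finsupp.mapDomain_single, SemilinearAut.smul_single]
  have hint : ∀ E ∈ integralPrincipalDivisors A π N, Δ E = 0 := by
    rintro E ⟨y, hy, hyk, hne, hEy⟩
    rw [happ, sub_eq_zero]
    ext Q
    have h1 : coeffMap A.subtype (coeffMap σA y) =
        coeffMap (σ : L →+* L) (coeffMap A.subtype y) := by
      rw [coeffMap_coeffMap, coeffMap_coeffMap]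
      exact coeffMap_congr (RingHom.ext hσA) y
    have h2 : coeffMap π (coeffMap σA y) = coeffMap (τ : k →+* k) (coeffMap π y) := by
      rw [coeffMap_coeffMap, coeffMap_coeffMap]
      exact coeffMap_congr (RingHom.ext hτ) y
    have hy' : coeffMap A.subtype (coeffMap σA y) ∈
        laurentBaseChange L (modularFunctionFieldFull N) := by
      rw [h1]; exact coeffMap_mem_laurentBaseChange σ hy
    have hyk' : coeffMap π (coeffMap σA y) ∈ modularFunctionFieldFullC k N := by
      rw [h2]; exact coeffMap_mem_fullC N _ hyk
    have hne' : coeffMap π (coeffMap σA y) ≠ 0 := by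
      rw [h2]
      exact fun h => hne (HahnSeries.ext (funext fun i => τ.injective
        ((congrArg (fun x : LaurentSeries k => x.coeff i) h).trans (map_zero τ).symm)))
    have hdiv : ∀ P, (g • E) P = P.ord
        (⟨coeffMap A.subtype (coeffMap σA y), hy'⟩ :
          laurentBaseChange L (modularFunctionFieldFull N)) := fun P => by
      rw [SemilinearAut.divisor_smul_apply, hEy]
      refine (SemilinearAut.ord_smul g (g⁻¹ • P) ⟨coeffMap A.subtype y, hy⟩).symm.trans ?_
      rw [smul_inv_smul]
      exact congrArg P.ord (Subtype.ext h1.symm)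
    rw [hr.2 _ hy' hyk' hne' _ hdiv Q, SemilinearAut.divisor_smul_apply,
      hr.2 y hy hyk hne E hEy]
    refine Eq.trans ?_ (SemilinearAut.ord_smul (coeffGalois N τ)
      ((coeffGalois N τ)⁻¹ • Q) ⟨coeffMap π y, hyk⟩)
    rw [smul_inv_smul]
    exact congrArg Q.ord (Subtype.ext h2)
  have h0 := eq_zero_of_degree_eq_zero hdeg hRR hbdd (forall_principal_of_integral Δ hgen hint) hD
  rw [happ, sub_eq_zero] at h0
  exact h0

/-- Galois equivariance of the reduction of divisor classes. -/
theorem reductionPic0Along_smul
    [HasPrincipalDivisors L (laurentBaseChange L (modularFunctionFieldFull N))]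
    (hr : IsPlaceReductionAlong A π N r) (hgen : PrincipalGeneratedByIntegral A π N)
    (hdeg : ∀ v : Place L (laurentBaseChange L (modularFunctionFieldFull N)), v.deg = 1)
    (hRR : HasRiemannBound L (laurentBaseChange L (modularFunctionFieldFull N)))
    (σ : L ≃ₐ[ℚ] L) (σA : A →+* A) (hσA : ∀ a, (σA a : L) = σ a)
    (τ : RingAut k) (hτ : ∀ a, π (σA a) = τ (π a))
    (x : Pic0 L (laurentBaseChange L (modularFunctionFieldFull N))) :
    reductionPic0Along r hr hgen (σ • x) =
      coeffGalois N τ • reductionPic0Along r hr hgen x := by
  obtain ⟨D, rfl⟩ := Pic0.mk_surjective x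
  rw [galois_smul_pic0_def, SemilinearAut.pic0_smul_mk, reductionPic0Along_mk,
    reductionPic0Along_mk, SemilinearAut.pic0_smul_mk]
  exact congrArg Pic0.mk (Subtype.ext
    (mapDomain_arithmeticGalois_smul hr hgen hdeg hRR σ σA hσA τ hτ D.2))

end FLTAgent.Kronecker
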